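/-
S25, block DEGREE (squad S25/S10, squad-lead helper10): FROZEN DEFINITIONS.

Pure commutative algebra on top of the frozen `DefsAlg.lean`:

* `GDHom G G'`            : morphisms of gluing data (three linear maps commuting with `r₀`, `r₁`);
* `GDHom.id`, `GDHom.comp`, `GDHom.ofIso`, `GDHom.ofSection` (a section of `Ȟ⁰` is a morphism
  from the unit datum);
* `gdTwist G u`           : the gluing datum with `r₁` replaced by `u • r₁`, `u` a unit of `R₀₁`;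
* `xUnit`, `twistE G n`   : the twist `G(n) = G ⊗ O(n E₀)` of a `CurveGD` (`u = (1 ⊗ x) ^ n`, `n : ℤ`),
  so that `(twistE G n).cech (a, b) = r₀ a - (1 ⊗ x) ^ n • r₁ b`;
* `chartDeg`, `genus`     : `d = dim_k B₁ / (y)` and `g = dim_k Ȟ¹(unit over k)`.

Statements of the block: `DegreeSkel.lean` (same directory, on branch origin/helper10 only).
-/
import Fermat.Agent.S25.DefsAlg

set_option autoImplicit false

universe u

open scoped TensorProduct

namespace Fermat.Agent.S25.H10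

open Fermat.Agent.S25

noncomputable section

/-! ## Morphisms of gluing data -/

section Hom

variable {A R₀ R₁ R₀₁ : Type u} [CommRing A] [CommRing R₀] [CommRing R₁]
    [CommRing R₀₁] [Algebra A R₀] [Algebra A R₁] [Algebra A R₀₁] [Algebra R₀ R₀₁]
    [Algebra R₁ R₀₁] [IsScalarTower A R₀ R₀₁] [IsScalarTower A R₁ R₀₁]

/-- A morphism of gluing data: linear maps on the two charts and on the intersection,
compatible with the restriction maps. -/
structure GDHom (G G' : GlueDatum A R₀ R₁ R₀₁) where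
  f₀ : G.N₀ →ₗ[R₀] G'.N₀
  f₁ : G.N₁ →ₗ[R₁] G'.N₁
  f₀₁ : G.N₀₁ →ₗ[R₀₁] G'.N₀₁
  comm₀ : ∀ s, f₀₁ (G.r₀ s) = G'.r₀ (f₀ s)
  comm₁ : ∀ s, f₀₁ (G.r₁ s) = G'.r₁ (f₁ s)

namespace GDHom

/-- The identity morphism. -/
protected def id (G : GlueDatum A R₀ R₁ R₀₁) : GDHom G G where
  f₀ := LinearMap.id
  f₁ := LinearMap.id
  f₀₁ := LinearMap.id
  comm₀ _ := rfl
  comm₁ _ := rfl

/-- Composition of morphisms. -/
def comp {G G' G'' : GlueDatum A R₀ R₁ R₀₁} (g : GDHom G' G'') (f : GDHom G G') :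
    GDHom G G'' where
  f₀ := g.f₀.comp f.f₀
  f₁ := g.f₁.comp f.f₁
  f₀₁ := g.f₀₁.comp f.f₀₁
  comm₀ s := by simp [f.comm₀, g.comm₀]
  comm₁ s := by simp [f.comm₁, g.comm₁]

/-- The morphism underlying an isomorphism. -/
def ofIso {G G' : GlueDatum A R₀ R₁ R₀₁} (e : GlueDatum.Iso G G') : GDHom G G' where
  f₀ := e.e₀.toLinearMap
  f₁ := e.e₁.toLinearMap
  f₀₁ := e.e₀₁.toLinearMap
  comm₀ := e.comm₀
  comm₁ := e.comm₁

/-- A morphism is *injective* if it is so on both charts. -/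
def Injective {G G' : GlueDatum A R₀ R₁ R₀₁} (f : GDHom G G') : Prop :=
  Function.Injective f.f₀ ∧ Function.Injective f.f₁

/-- A morphism is *bijective* if it is so on both charts and on the intersection. -/
def Bijective {G G' : GlueDatum A R₀ R₁ R₀₁} (f : GDHom G G') : Prop :=
  Function.Bijective f.f₀ ∧ Function.Bijective f.f₁ ∧ Function.Bijective f.f₀₁

/-- The induced map on Čech cochains `N₀ × N₁`, `A`-linear. -/
def map01 {G G' : GlueDatum A R₀ R₁ R₀₁} (f : GDHom G G') :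
    (G.N₀ × G.N₁) →ₗ[A] (G'.N₀ × G'.N₁) :=
  (f.f₀.restrictScalars A).prodMap (f.f₁.restrictScalars A)

theorem cech_map01 {G G' : GlueDatum A R₀ R₁ R₀₁} (f : GDHom G G') (s : G.N₀ × G.N₁) :
    G'.cech (f.map01 s) = f.f₀₁ (G.cech s) := by
  obtain ⟨a, b⟩ := s
  simp [GlueDatum.cech, map01, f.comm₀, f.comm₁]

/-- The morphism `unit → G` defined by a section `s ∈ Ȟ⁰(G)`. -/
def ofSection (G : GlueDatum A R₀ R₁ R₀₁) (s : G.H0) :
    GDHom (GlueDatum.unit A R₀ R₁ R₀₁) G where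
  f₀ := LinearMap.toSpanSingleton R₀ G.N₀ s.1.1
  f₁ := LinearMap.toSpanSingleton R₁ G.N₁ s.1.2
  f₀₁ := LinearMap.toSpanSingleton R₀₁ G.N₀₁ (G.r₀ s.1.1)
  comm₀ := fun (r : R₀) => by
    show (algebraMap R₀ R₀₁ r) • G.r₀ s.1.1 = G.r₀ ((r : R₀) • (s.1.1 : G.N₀))
    rw [map_smul, algebraMap_smul]
  comm₁ := fun (r : R₁) => by
    have h : G.r₀ s.1.1 = G.r₁ s.1.2 := by
      have h0 : G.cech (s.1.1, s.1.2) = 0 := LinearMap.mem_ker.mp s.2
      have h1 : G.r₀ s.1.1 + -(G.r₁ s.1.2) = 0 := h0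
      exact eq_neg_iff_add_eq_zero.mpr h1 |>.trans (neg_neg _)
    show (algebraMap R₁ R₀₁ r) • G.r₀ s.1.1 = G.r₁ ((r : R₁) • (s.1.2 : G.N₁))
    rw [map_smul, algebraMap_smul, h]

end GDHom

/-! ## Twisting the gluing by a unit of `R₀₁` -/

/-- Multiplication by a unit `u` of `R₀₁` on an `R₀₁`-module, as a linear equivalence. -/
def unitSMulEquiv (u : R₀₁ˣ) (N : Type u) [AddCommGroup N] [Module R₀₁ N] : N ≃ₗ[R₀₁] N where
  toFun n := (u : R₀₁) • n
  invFun n := ((u⁻¹ : R₀₁ˣ) : R₀₁) • n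
  map_add' := smul_add _
  map_smul' r n := by simp [smul_smul, mul_comm]
  left_inv n := by simp [smul_smul]
  right_inv n := by simp [smul_smul]

/-- The gluing datum `G` with the second restriction map replaced by `u • r₁`.  For the unit
datum this is the line bundle with transition function `u`. -/
def gdTwist (G : GlueDatum A R₀ R₁ R₀₁) (u : R₀₁ˣ) : GlueDatum A R₀ R₁ R₀₁ where
  N₀ := G.N₀
  N₁ := G.N₁
  N₀₁ := G.N₀₁
  r₀ := G.r₀
  r₁ := ((unitSMulEquiv u G.N₀₁).toLinearMap.restrictScalars R₁).comp G.r₁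
  isBaseChange₀ := G.isBaseChange₀
  isBaseChange₁ := by
    have h := G.isBaseChange₁.comp (IsBaseChange.ofEquiv (unitSMulEquiv u G.N₀₁))
    exact h
  invertible₀ := G.invertible₀
  invertible₁ := G.invertible₁

@[simp] theorem gdTwist_r₁_apply (G : GlueDatum A R₀ R₁ R₀₁) (u : R₀₁ˣ) (n : G.N₁) :
    (gdTwist G u).r₁ n = ((u : R₀₁) • G.r₁ n : G.N₀₁) := rfl

@[simp] theorem gdTwist_r₀_apply (G : GlueDatum A R₀ R₁ R₀₁) (u : R₀₁ˣ) (n : G.N₀) :
    (gdTwist G u).r₀ n = (G.r₀ n : G.N₀₁) := rfl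

theorem gdTwist_cech_apply (G : GlueDatum A R₀ R₁ R₀₁) (u : R₀₁ˣ) (a : G.N₀) (b : G.N₁) :
    (gdTwist G u).cech (a, b) = (G.r₀ a - (u : R₀₁) • G.r₁ b : G.N₀₁) := by
  show (gdTwist G u).r₀ a + -((gdTwist G u).r₁ b) = _
  rw [gdTwist_r₁_apply, gdTwist_r₀_apply, sub_eq_add_neg]
  rfl

end Hom

/-! ## Curve charts: the twists `G(n)`, the numbers `d` and `g` -/

section Curve

variable {k : Type u} [Field k] {B₀ B₁ B₀₁ : Type u} [CommRing B₀] [CommRing B₁] [CommRing B₀₁]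
  [Algebra k B₀] [Algebra k B₁] [Algebra k B₀₁] [Algebra B₀ B₀₁] [Algebra B₁ B₀₁]
  [IsScalarTower k B₀ B₀₁] [IsScalarTower k B₁ B₀₁]

/-- The unit `1 ⊗ x` of `A ⊗[k] B₀₁` (inverse `1 ⊗ y`). -/
def xUnit (x : B₀) (y : B₁) (hxy : algebraMap B₀ B₀₁ x * algebraMap B₁ B₀₁ y = 1)
    (A : Type u) [CommRing A] [Algebra k A] : (A ⊗[k] B₀₁)ˣ where
  val := (1 : A) ⊗ₜ[k] algebraMap B₀ B₀₁ x
  inv := (1 : A) ⊗ₜ[k] algebraMap B₁ B₀₁ y
  val_inv := by
    rw [Algebra.TensorProduct.tmul_mul_tmul, one_mul, hxy, ← Algebra.TensorProduct.one_def]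
  inv_val := by
    rw [Algebra.TensorProduct.tmul_mul_tmul, one_mul, mul_comm, hxy,
      ← Algebra.TensorProduct.one_def]

/-- The twist `G(n) = G ⊗ O(n E₀)`, `E₀ = div(y)` on `Spec B₁`: sections of `G(n)` over the
second chart are the sections of `G` with a pole of order `≤ n` along `E₀`.
`(twistE x y hxy G n).cech (a, b) = r₀ a - (1 ⊗ x) ^ n • r₁ b`. -/
def twistE (x : B₀) (y : B₁) (hxy : algebraMap B₀ B₀₁ x * algebraMap B₁ B₀₁ y = 1)
    {A : Type u} [CommRing A] [Algebra k A] (G : CurveGD k B₀ B₁ B₀₁ A) (n : ℤ) :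
    CurveGD k B₀ B₁ B₀₁ A :=
  gdTwist G (xUnit x y hxy A ^ n)

variable (k B₀ B₁ B₀₁) in
/-- The genus of the chart: `dim_k Ȟ¹` of the unit datum over `k`. -/
def genus : ℕ :=
  Module.finrank k (GlueDatum.unit k (k ⊗[k] B₀) (k ⊗[k] B₁) (k ⊗[k] B₀₁)).H1

variable (k) in
/-- The degree of the divisor `E₀ = div(y)`: `dim_k B₁ / (y)`. -/
def chartDeg (y : B₁) : ℕ := Module.finrank k (B₁ ⧸ Ideal.span {y})


/-! ## The map induced on `Ȟ⁰` by a base change -/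

section MapH0

variable {A A' : Type u} [CommRing A] [Algebra k A] [CommRing A'] [Algebra k A']

theorem tensorMapLeft_algebraMap (φ : A →ₐ[k] A') (B : Type u) [CommRing B] [Algebra k B]
    (a : A) : tensorMapLeft k φ B (algebraMap A (A ⊗[k] B) a) = algebraMap A' (A' ⊗[k] B) (φ a) := by
  simp [tensorMapLeft, Algebra.TensorProduct.algebraMap_apply]

/-- The `φ`-semilinear map `Ȟ⁰(G) → Ȟ⁰(G')` induced by base-change maps `G → G'`. -/
def mapH0 (φ : A →ₐ[k] A') {G : CurveGD k B₀ B₁ B₀₁ A} {G' : CurveGD k B₀ B₁ B₀₁ A'}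
    (bc : GlueDatum.BaseChangeMaps (tensorMapLeft k φ B₀) (tensorMapLeft k φ B₁)
      (tensorMapLeft k φ B₀₁) G G') : G.H0 →ₛₗ[φ.toRingHom] G'.H0 where
  toFun s := ⟨(bc.b₀ s.1.1, bc.b₁ s.1.2), by
    have h0 : G.cech (s.1.1, s.1.2) = 0 := LinearMap.mem_ker.mp s.2
    have h1 : G.r₀ s.1.1 + -(G.r₁ s.1.2) = 0 := h0
    have h' : G.r₀ s.1.1 = G.r₁ s.1.2 := eq_neg_iff_add_eq_zero.mpr h1 |>.trans (neg_neg _)
    rw [LinearMap.mem_ker]
    show G'.r₀ (bc.b₀ s.1.1) + -(G'.r₁ (bc.b₁ s.1.2)) = 0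
    rw [← bc.comm₀, ← bc.comm₁, h', add_neg_cancel]⟩
  map_add' s t := by
    apply Subtype.ext
    simp
  map_smul' a s := by
    apply Subtype.ext
    have h₀ : bc.b₀ (a • s.1.1) = φ a • bc.b₀ s.1.1 := by
      rw [← algebraMap_smul (A ⊗[k] B₀) a s.1.1, bc.b₀.map_smulₛₗ, tensorMapLeft_algebraMap,
        algebraMap_smul]
    have h₁ : bc.b₁ (a • s.1.2) = φ a • bc.b₁ s.1.2 := by
      rw [← algebraMap_smul (A ⊗[k] B₁) a s.1.2, bc.b₁.map_smulₛₗ, tensorMapLeft_algebraMap,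
        algebraMap_smul]
    simp [h₀, h₁]

end MapH0

end Curve

end

end Fermat.Agent.S25.H10
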