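/-
S25, block CECH (squad S25/S10, squad-lead helper10): operator-style core of the two-chart
Čech complex — DEFINITIONS (frozen).  Mathlib-only commutative algebra.

`CechOps` : the `A`-linear data of a two-chart gluing datum:
  `N0` (sections on `U0`), `N1` (sections on `U1`), `N01` (sections on `U0 ∩ U1`),
  `X0` = multiplication by `x` on `N0`, `Y1` = multiplication by `y = x⁻¹` on `N1`,
  `T`, `Tinv` = multiplication by `x`, `y` on `N01`, and the restriction maps `r0`, `r1`.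
`CechOps.d m` : the `m`-fold twisted Čech differential `(a, b) ↦ r0 a - T ^ m (r1 b)`,
  i.e. the Čech differential of `L(m·∞)`.
-/
import Mathlib

set_option autoImplicit false

namespace Fermat.Agent.S25.H10

open Polynomial TensorProduct

universe u v w

/-- Operator-style two-chart Čech datum over `A`. -/
structure CechOps (A : Type u) [CommRing A] (N0 N1 N01 : Type v)
    [AddCommGroup N0] [AddCommGroup N1] [AddCommGroup N01]
    [Module A N0] [Module A N1] [Module A N01] where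
  /-- multiplication by `x` on `N0` -/
  X0 : Module.End A N0
  /-- multiplication by `y = x⁻¹` on `N1` -/
  Y1 : Module.End A N1
  /-- multiplication by `x` on `N01` -/
  T : Module.End A N01
  /-- multiplication by `y = x⁻¹` on `N01` -/
  Tinv : Module.End A N01
  /-- restriction from `U0` to `U0 ∩ U1` -/
  r0 : N0 →ₗ[A] N01
  /-- restriction from `U1` to `U0 ∩ U1` -/
  r1 : N1 →ₗ[A] N01
  T_mul_Tinv : T * Tinv = 1
  Tinv_mul_T : Tinv * T = 1
  r0_X0 : ∀ n, r0 (X0 n) = T (r0 n)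
  r1_Y1 : ∀ n, r1 (Y1 n) = Tinv (r1 n)
  /-- `N01` is `N0` localized away from `x`: surjectivity part. -/
  loc0 : ∀ z : N01, ∃ (k : ℕ) (n : N0), (T ^ k) z = r0 n
  /-- `N01` is `N1` localized away from `y`: surjectivity part. -/
  loc1 : ∀ z : N01, ∃ (k : ℕ) (n : N1), (Tinv ^ k) z = r1 n

/-- `N` with the operator `E` is a finitely generated projective `A[X]`-module, in elementary
form: an `X`-equivariant `A`-linear retract of `A[X]^n`. -/
def IsFGProj {A : Type u} [CommRing A] {N : Type v} [AddCommGroup N] [Module A N]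
    (E : Module.End A N) : Prop :=
  ∃ (n : ℕ) (ι : N →ₗ[A] (Fin n → A[X])) (π : (Fin n → A[X]) →ₗ[A] N),
    π ∘ₗ ι = LinearMap.id ∧ (∀ v, ι (E v) = (X : A[X]) • ι v) ∧
      (∀ w, π ((X : A[X]) • w) = E (π w))

/-- `N` with the operator `E` is a finitely generated `A[X]`-module, in elementary form. -/
def IsFG {A : Type u} [CommRing A] {N : Type v} [AddCommGroup N] [Module A N]
    (E : Module.End A N) : Prop :=
  ∃ s : Finset N, ∀ n : N, n ∈ Submodule.span A {m : N | ∃ e ∈ s, ∃ k : ℕ, m = (E ^ k) e}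

namespace CechOps

variable {A : Type u} [CommRing A] {N0 N1 N01 : Type v}
  [AddCommGroup N0] [AddCommGroup N1] [AddCommGroup N01]
  [Module A N0] [Module A N1] [Module A N01]

theorem T_Tinv_apply (D : CechOps A N0 N1 N01) (z : N01) : D.T (D.Tinv z) = z := by
  rw [← Module.End.mul_apply, D.T_mul_Tinv, Module.End.one_apply]

theorem Tinv_T_apply (D : CechOps A N0 N1 N01) (z : N01) : D.Tinv (D.T z) = z := by
  rw [← Module.End.mul_apply, D.Tinv_mul_T, Module.End.one_apply]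

theorem commute_T_Tinv (D : CechOps A N0 N1 N01) : Commute D.T D.Tinv := by
  show D.T * D.Tinv = D.Tinv * D.T
  rw [D.T_mul_Tinv, D.Tinv_mul_T]

theorem T_pow_mul_Tinv_pow (D : CechOps A N0 N1 N01) (k : ℕ) : D.T ^ k * D.Tinv ^ k = 1 := by
  rw [← D.commute_T_Tinv.mul_pow, D.T_mul_Tinv, one_pow]

theorem Tinv_pow_mul_T_pow (D : CechOps A N0 N1 N01) (k : ℕ) : D.Tinv ^ k * D.T ^ k = 1 := by
  rw [← D.commute_T_Tinv.symm.mul_pow, D.Tinv_mul_T, one_pow]

theorem T_pow_Tinv_pow_apply (D : CechOps A N0 N1 N01) (k : ℕ) (z : N01) :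
    (D.T ^ k) ((D.Tinv ^ k) z) = z := by
  rw [← Module.End.mul_apply, D.T_pow_mul_Tinv_pow, Module.End.one_apply]

theorem Tinv_pow_T_pow_apply (D : CechOps A N0 N1 N01) (k : ℕ) (z : N01) :
    (D.Tinv ^ k) ((D.T ^ k) z) = z := by
  rw [← Module.End.mul_apply, D.Tinv_pow_mul_T_pow, Module.End.one_apply]

theorem r0_X0_pow (D : CechOps A N0 N1 N01) (k : ℕ) (n : N0) :
    D.r0 ((D.X0 ^ k) n) = (D.T ^ k) (D.r0 n) := by
  induction k generalizing n with
  | zero => simp
  | succ k ih => rw [pow_succ', Module.End.mul_apply, D.r0_X0, ih, pow_succ', Module.End.mul_apply]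

theorem r1_Y1_pow (D : CechOps A N0 N1 N01) (k : ℕ) (n : N1) :
    D.r1 ((D.Y1 ^ k) n) = (D.Tinv ^ k) (D.r1 n) := by
  induction k generalizing n with
  | zero => simp
  | succ k ih => rw [pow_succ', Module.End.mul_apply, D.r1_Y1, ih, pow_succ', Module.End.mul_apply]

/-- The Čech differential of the `m`-fold twist `L(m·∞)`: `(a, b) ↦ r0 a - T ^ m (r1 b)`. -/
def d (D : CechOps A N0 N1 N01) (m : ℕ) : (N0 × N1) →ₗ[A] N01 :=
  D.r0.coprod (-((D.T ^ m) ∘ₗ D.r1))

@[simp] theorem d_apply (D : CechOps A N0 N1 N01) (m : ℕ) (p : N0 × N1) :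
    D.d m p = D.r0 p.1 - (D.T ^ m) (D.r1 p.2) := by
  simp [d, sub_eq_add_neg]

theorem mem_ker_d (D : CechOps A N0 N1 N01) (m : ℕ) (p : N0 × N1) :
    p ∈ LinearMap.ker (D.d m) ↔ D.r0 p.1 = (D.T ^ m) (D.r1 p.2) := by
  rw [LinearMap.mem_ker, d_apply, sub_eq_zero]

/-- `H⁰(L(m∞))`. -/
abbrev H0 (D : CechOps A N0 N1 N01) (m : ℕ) : Submodule A (N0 × N1) := LinearMap.ker (D.d m)

/-- `H¹(L(m∞))`. -/
abbrev H1 (D : CechOps A N0 N1 N01) (m : ℕ) : Type v := N01 ⧸ LinearMap.range (D.d m)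

/-- The map `H⁰(L(m∞)) → N1 / y^m N1`, `(a, b) ↦ [b]`. -/
def δ (D : CechOps A N0 N1 N01) (m : ℕ) : D.H0 m →ₗ[A] (N1 ⧸ LinearMap.range (D.Y1 ^ m)) :=
  (LinearMap.range (D.Y1 ^ m)).mkQ ∘ₗ (LinearMap.snd A N0 N1) ∘ₗ (D.H0 m).subtype

@[simp] theorem δ_apply (D : CechOps A N0 N1 N01) (m : ℕ) (p : D.H0 m) :
    D.δ m p = (LinearMap.range (D.Y1 ^ m)).mkQ (p : N0 × N1).2 := rfl

/-- The inclusion `H⁰(L) → H⁰(L(m∞))`, `(a, b) ↦ (a, y^m b)`. -/
def incl (D : CechOps A N0 N1 N01) (m : ℕ) : D.H0 0 →ₗ[A] D.H0 m :=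
  LinearMap.codRestrict (D.H0 m)
    ((LinearMap.prodMap LinearMap.id (D.Y1 ^ m)) ∘ₗ (D.H0 0).subtype)
    (by
      rintro ⟨⟨a, b⟩, hab⟩
      rw [mem_ker_d] at hab
      simp only [pow_zero, Module.End.one_apply] at hab
      rw [mem_ker_d]
      simp only [LinearMap.coe_comp, Submodule.coe_subtype, Function.comp_apply,
        LinearMap.prodMap_apply, LinearMap.id_coe, id_eq]
      rw [D.r1_Y1_pow, D.T_pow_Tinv_pow_apply, hab])

@[simp] theorem incl_apply_coe (D : CechOps A N0 N1 N01) (m : ℕ) (p : D.H0 0) :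
    ((D.incl m p : D.H0 m) : N0 × N1) = ((p : N0 × N1).1, (D.Y1 ^ m) (p : N0 × N1).2) := rfl

/-- The connecting map `N1 / y^m N1 → H¹(L)`, `[b] ↦ [T^m (r1 b)]`. -/
def conn (D : CechOps A N0 N1 N01) (m : ℕ) :
    (N1 ⧸ LinearMap.range (D.Y1 ^ m)) →ₗ[A] D.H1 0 :=
  Submodule.liftQ _ ((LinearMap.range (D.d 0)).mkQ ∘ₗ (D.T ^ m) ∘ₗ D.r1)
    (by
      rintro _ ⟨b, rfl⟩
      rw [LinearMap.mem_ker]
      simp only [LinearMap.coe_comp, Function.comp_apply, Submodule.mkQ_apply]
      rw [Submodule.Quotient.mk_eq_zero, D.r1_Y1_pow, D.T_pow_Tinv_pow_apply]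
      refine ⟨(0, -b), ?_⟩
      simp)

@[simp] theorem conn_mk (D : CechOps A N0 N1 N01) (m : ℕ) (b : N1) :
    D.conn m (Submodule.Quotient.mk b) = Submodule.Quotient.mk ((D.T ^ m) (D.r1 b)) := rfl

/-- Base change of a Čech datum along `A → A'`. -/
noncomputable def baseChange (A' : Type w) [CommRing A'] [Algebra A A']
    (D : CechOps A N0 N1 N01) : CechOps A' (A' ⊗[A] N0) (A' ⊗[A] N1) (A' ⊗[A] N01) where
  X0 := D.X0.baseChange A'
  Y1 := D.Y1.baseChange A'
  T := D.T.baseChange A'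
  Tinv := D.Tinv.baseChange A'
  r0 := D.r0.baseChange A'
  r1 := D.r1.baseChange A'
  T_mul_Tinv := by
    rw [← LinearMap.baseChange_mul, D.T_mul_Tinv, LinearMap.baseChange_one]
  Tinv_mul_T := by
    rw [← LinearMap.baseChange_mul, D.Tinv_mul_T, LinearMap.baseChange_one]
  r0_X0 := by
    intro n
    induction n using TensorProduct.induction_on with
    | zero => simp
    | tmul a n => simp [D.r0_X0]
    | add x y hx hy => simp only [map_add, hx, hy]
  r1_Y1 := by
    intro n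
    induction n using TensorProduct.induction_on with
    | zero => simp
    | tmul a n => simp [D.r1_Y1]
    | add x y hx hy => simp only [map_add, hx, hy]
  loc0 := by
    have hpow : ∀ k : ℕ, (D.T.baseChange A') ^ k = (D.T ^ k).baseChange A' := by
      intro k
      induction k with
      | zero => simp [Module.End.one_eq_id]
      | succ k ih => rw [pow_succ, ih, pow_succ, LinearMap.baseChange_mul]
    have key : ∀ z : A' ⊗[A] N01, ∃ (k : ℕ), ∀ j, k ≤ j →
        ∃ n : A' ⊗[A] N0, ((D.T ^ j).baseChange A') z = (D.r0.baseChange A') n := by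
      intro z
      induction z using TensorProduct.induction_on with
      | zero => exact ⟨0, fun j _ => ⟨0, by simp⟩⟩
      | tmul a z =>
        obtain ⟨k, n, hk⟩ := D.loc0 z
        refine ⟨k, fun j hj => ⟨a ⊗ₜ ((D.X0 ^ (j - k)) n), ?_⟩⟩
        simp only [LinearMap.baseChange_tmul]
        rw [D.r0_X0_pow, ← hk, ← Module.End.mul_apply, ← pow_add, Nat.sub_add_cancel hj]
      | add x y hx hy =>
        obtain ⟨kx, hx⟩ := hx
        obtain ⟨ky, hy⟩ := hy
        refine ⟨max kx ky, fun j hj => ?_⟩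
        obtain ⟨nx, hnx⟩ := hx j (le_trans (le_max_left _ _) hj)
        obtain ⟨ny, hny⟩ := hy j (le_trans (le_max_right _ _) hj)
        exact ⟨nx + ny, by rw [map_add, map_add, hnx, hny]⟩
    intro z
    obtain ⟨k, hk⟩ := key z
    obtain ⟨n, hn⟩ := hk k le_rfl
    exact ⟨k, n, by rw [hpow, hn]⟩
  loc1 := by
    have hpow : ∀ k : ℕ, (D.Tinv.baseChange A') ^ k = (D.Tinv ^ k).baseChange A' := by
      intro k
      induction k with
      | zero => simp [Module.End.one_eq_id]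
      | succ k ih => rw [pow_succ, ih, pow_succ, LinearMap.baseChange_mul]
    have key : ∀ z : A' ⊗[A] N01, ∃ (k : ℕ), ∀ j, k ≤ j →
        ∃ n : A' ⊗[A] N1, ((D.Tinv ^ j).baseChange A') z = (D.r1.baseChange A') n := by
      intro z
      induction z using TensorProduct.induction_on with
      | zero => exact ⟨0, fun j _ => ⟨0, by simp⟩⟩
      | tmul a z =>
        obtain ⟨k, n, hk⟩ := D.loc1 z
        refine ⟨k, fun j hj => ⟨a ⊗ₜ ((D.Y1 ^ (j - k)) n), ?_⟩⟩
        simp only [LinearMap.baseChange_tmul]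
        rw [D.r1_Y1_pow, ← hk, ← Module.End.mul_apply, ← pow_add, Nat.sub_add_cancel hj]
      | add x y hx hy =>
        obtain ⟨kx, hx⟩ := hx
        obtain ⟨ky, hy⟩ := hy
        refine ⟨max kx ky, fun j hj => ?_⟩
        obtain ⟨nx, hnx⟩ := hx j (le_trans (le_max_left _ _) hj)
        obtain ⟨ny, hny⟩ := hy j (le_trans (le_max_right _ _) hj)
        exact ⟨nx + ny, by rw [map_add, map_add, hnx, hny]⟩
    intro z
    obtain ⟨k, hk⟩ := key z
    obtain ⟨n, hn⟩ := hk k le_rfl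
    exact ⟨k, n, by rw [hpow, hn]⟩

end CechOps

end Fermat.Agent.S25.H10
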