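/-
S25, block CECH (helper10): leaves K0 (basics of `IsFGProj`) and K1c, exact statements of
`CechSkel.lean`.  Mathlib + `CechDefs`.
-/
import Fermat.Agent.S25.H10.CechDefs

set_option autoImplicit false

namespace Fermat.Agent.S25.H10

open Polynomial Submodule

universe u v

variable {A : Type u} [CommRing A]

section K0
variable {N : Type v} [AddCommGroup N] [Module A N] {E : Module.End A N}

theorem π_X_pow_smul {n : ℕ} (π : (Fin n → A[X]) →ₗ[A] N)
    (hπ : ∀ w, π ((X : A[X]) • w) = E (π w)) (k : ℕ) (w : Fin n → A[X]) :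
    π ((X : A[X]) ^ k • w) = (E ^ k) (π w) := by
  induction k generalizing w with
  | zero => simp
  | succ k ih =>
    rw [pow_succ, mul_smul, ih, hπ, pow_succ, Module.End.mul_apply]

theorem ι_pow {n : ℕ} (ι : N →ₗ[A] (Fin n → A[X]))
    (hι : ∀ v, ι (E v) = (X : A[X]) • ι v) (k : ℕ) (v : N) :
    ι ((E ^ k) v) = (X : A[X]) ^ k • ι v := by
  induction k generalizing v with
  | zero => simp
  | succ k ih =>
    rw [pow_succ, Module.End.mul_apply, ih, hι, pow_succ, mul_smul]

/-- Every vector of `A[X]^n` is an `A`-linear combination of the `X^k • e_i`. -/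
theorem mem_span_X_pow_smul_single {n : ℕ} (w : Fin n → A[X]) :
    w ∈ span A {m : Fin n → A[X] | ∃ (i : Fin n) (k : ℕ),
      m = (X : A[X]) ^ k • (Pi.single i (1 : A[X]) : Fin n → A[X])} := by
  classical
  have hsingle : ∀ (i : Fin n) (p : A[X]), (Pi.single i p : Fin n → A[X]) ∈
      span A {m : Fin n → A[X] | ∃ (i : Fin n) (k : ℕ),
        m = (X : A[X]) ^ k • (Pi.single i (1 : A[X]) : Fin n → A[X])} := by
    intro i p
    induction p using Polynomial.induction_on' with
    | add p q hp hq =>
      rw [Pi.single_add]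
      exact Submodule.add_mem _ hp hq
    | monomial k a =>
      have : (Pi.single i (monomial k a) : Fin n → A[X]) =
          a • ((X : A[X]) ^ k • (Pi.single i (1 : A[X]) : Fin n → A[X])) := by
        rw [← Pi.single_smul, ← Pi.single_smul]
        congr 1
        rw [smul_eq_mul, mul_one, ← C_mul_X_pow_eq_monomial, Polynomial.smul_eq_C_mul]
      rw [this]
      exact Submodule.smul_mem _ _ (subset_span ⟨i, k, rfl⟩)
  have hw : w = ∑ i, (Pi.single i (w i) : Fin n → A[X]) := by
    ext j : 1
    simp [Finset.sum_apply, Pi.single_apply]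
  rw [hw]
  exact Submodule.sum_mem _ fun i _ => hsingle i (w i)

/-- K0a. -/
theorem isFG_of_isFGProj (h : IsFGProj E) : IsFG E := by
  classical
  obtain ⟨n, ι, π, hπι, hι, hπ⟩ := h
  refine ⟨Finset.univ.image (fun i : Fin n => π (Pi.single i (1 : A[X]))), fun v => ?_⟩
  have hv : v = π (ι v) := by
    have := congrArg (fun f : N →ₗ[A] N => f v) hπι
    simpa using this.symm
  rw [hv]
  have hmem := mem_span_X_pow_smul_single (ι v)
  have := Submodule.mem_map_of_mem (f := π) hmem
  rw [Submodule.map_span] at this
  refine Submodule.span_mono ?_ this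
  rintro _ ⟨m, ⟨i, k, rfl⟩, rfl⟩
  refine ⟨π (Pi.single i 1), ?_, k, ?_⟩
  · exact Finset.mem_image.mpr ⟨i, Finset.mem_univ _, rfl⟩
  · exact π_X_pow_smul π hπ k _

/-- K0b. A retract of `A[X]^n` is projective over `A`. -/
theorem projective_of_isFGProj (h : IsFGProj E) : Module.Projective A N := by
  obtain ⟨n, ι, π, hπι, -, -⟩ := h
  exact Module.Projective.of_split ι π hπι

theorem X_smul_injective (n : ℕ) :
    Function.Injective (fun w : Fin n → A[X] => (X : A[X]) • w) := by
  intro w w' h
  funext i
  have := congrFun h i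
  simp only [Pi.smul_apply, smul_eq_mul] at this
  exact (Polynomial.monic_X (R := A)).isRegular.left this

/-- K0c. `E` is injective on a retract of `A[X]^n`. -/
theorem injective_of_isFGProj (h : IsFGProj E) : Function.Injective E := by
  obtain ⟨n, ι, π, hπι, hι, hπ⟩ := h
  have hιinj : Function.Injective ι := by
    intro a b hab
    have ha := congrArg (fun f : N →ₗ[A] N => f a) hπι
    have hb := congrArg (fun f : N →ₗ[A] N => f b) hπι
    simp only [LinearMap.coe_comp, Function.comp_apply, LinearMap.id_coe, id_eq] at ha hb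
    rw [← ha, ← hb, hab]
  intro a b hab
  apply hιinj
  apply X_smul_injective n
  show (X : A[X]) • ι a = (X : A[X]) • ι b
  rw [← hι, ← hι, hab]

theorem pow_injective_of_isFGProj (h : IsFGProj E) (k : ℕ) : Function.Injective (E ^ k) := by
  induction k with
  | zero => exact fun a b hab => by simpa using hab
  | succ k ih =>
    rw [pow_succ]
    exact fun a b hab => injective_of_isFGProj h (ih hab)

/-- K0f. Typeclass form ⇒ elementary form. -/
theorem isFGProj_of_module [Module A[X] N] [IsScalarTower A A[X] N] [Module.Finite A[X] N]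
    [Module.Projective A[X] N] :
    IsFGProj ((Algebra.lsmul A A N (X : A[X])) : Module.End A N) := by
  obtain ⟨n, f, g, -, -, hfg⟩ := Module.Finite.exists_comp_eq_id_of_projective A[X] N
  refine ⟨n, g.restrictScalars A, f.restrictScalars A, ?_, ?_, ?_⟩
  · ext v
    have := congrArg (fun h : N →ₗ[A[X]] N => h v) hfg
    simpa using this
  · intro v
    simp
  · intro w
    simp

end K0

/-- K1c. A retract contained in a finitely generated submodule is finitely generated. -/
theorem fg_of_le_fg_of_retract {M : Type v} [AddCommGroup M] [Module A M]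
    (H M' : Submodule A M) (hM' : M'.FG) (hle : H ≤ M')
    (p : M →ₗ[A] H) (hp : ∀ h : H, p h = h) : H.FG := by
  have hmap : (M'.map (H.subtype ∘ₗ p)) = H := by
    apply le_antisymm
    · rintro _ ⟨m, -, rfl⟩
      exact (p m).2
    · intro h hh
      refine ⟨h, hle hh, ?_⟩
      have := hp ⟨h, hh⟩
      simp only [LinearMap.coe_comp, Function.comp_apply, Submodule.coe_subtype]
      rw [this]
  rw [← hmap]
  exact hM'.map _

end Fermat.Agent.S25.H10
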