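/-
S25, block CECH (helper10): RR-lite, pure linear algebra part.

* `Snake` section: for `j : M → M'` and `d' : M' → N`, `d = d' ∘ j`, the exact sequence
  `0 → ker d → ker d' → M'/jM → N/dM → N/d'M' → 0` (five-term sequence of a modification of a
  two-term complex; this is the long exact sequence of `0 → L → L' → L'/L → 0` in Čech form).
* `pigeonhole`: Riemann's inequality in the form needed to produce a function with a pole at one
  point only.
-/
import Mathlib

set_option autoImplicit false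

namespace Fermat.Agent.S25.H10

open Submodule

section Snake

variable {A : Type*} [CommRing A] {M M' N : Type*}
  [AddCommGroup M] [AddCommGroup M'] [AddCommGroup N] [Module A M] [Module A M'] [Module A N]

/-- `ker (d' ∘ j) → ker d'`, induced by `j`. -/
def snakeα (j : M →ₗ[A] M') (d' : M' →ₗ[A] N) :
    LinearMap.ker (d' ∘ₗ j) →ₗ[A] LinearMap.ker d' :=
  LinearMap.codRestrict _ (j ∘ₗ (LinearMap.ker (d' ∘ₗ j)).subtype) (by
    rintro ⟨m, hm⟩
    simpa using hm)

@[simp] theorem snakeα_coe (j : M →ₗ[A] M') (d' : M' →ₗ[A] N) (m : LinearMap.ker (d' ∘ₗ j)) :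
    ((snakeα j d' m : LinearMap.ker d') : M') = j m := rfl

/-- `ker d' → M' / j M`. -/
def snakeβ (j : M →ₗ[A] M') (d' : M' →ₗ[A] N) :
    LinearMap.ker d' →ₗ[A] M' ⧸ LinearMap.range j :=
  (LinearMap.range j).mkQ ∘ₗ (LinearMap.ker d').subtype

@[simp] theorem snakeβ_apply (j : M →ₗ[A] M') (d' : M' →ₗ[A] N) (m : LinearMap.ker d') :
    snakeβ j d' m = Submodule.Quotient.mk (m : M') := rfl

/-- `M' / j M → N / d M`, induced by `d'`. -/
def snakeγ (j : M →ₗ[A] M') (d' : M' →ₗ[A] N) :
    (M' ⧸ LinearMap.range j) →ₗ[A] N ⧸ LinearMap.range (d' ∘ₗ j) :=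
  Submodule.liftQ _ ((LinearMap.range (d' ∘ₗ j)).mkQ ∘ₗ d') (by
    rintro _ ⟨m, rfl⟩
    rw [LinearMap.mem_ker, LinearMap.comp_apply, mkQ_apply, Submodule.Quotient.mk_eq_zero]
    exact ⟨m, rfl⟩)

@[simp] theorem snakeγ_mk (j : M →ₗ[A] M') (d' : M' →ₗ[A] N) (m : M') :
    snakeγ j d' (Submodule.Quotient.mk m) = Submodule.Quotient.mk (d' m) := rfl

/-- `N / d M → N / d' M'`. -/
def snakeε (j : M →ₗ[A] M') (d' : M' →ₗ[A] N) :
    (N ⧸ LinearMap.range (d' ∘ₗ j)) →ₗ[A] N ⧸ LinearMap.range d' :=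
  Submodule.liftQ _ (LinearMap.range d').mkQ (by
    rintro _ ⟨m, rfl⟩
    rw [LinearMap.mem_ker, mkQ_apply, Submodule.Quotient.mk_eq_zero]
    exact ⟨j m, rfl⟩)

@[simp] theorem snakeε_mk (j : M →ₗ[A] M') (d' : M' →ₗ[A] N) (n : N) :
    snakeε j d' (Submodule.Quotient.mk n) = Submodule.Quotient.mk n := rfl

theorem snakeα_injective (j : M →ₗ[A] M') (d' : M' →ₗ[A] N) (hj : Function.Injective j) :
    Function.Injective (snakeα j d') := by
  intro a b h
  apply Subtype.ext
  apply hj
  have := congrArg (fun z : LinearMap.ker d' => (z : M')) h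
  simpa using this

theorem range_snakeα (j : M →ₗ[A] M') (d' : M' →ₗ[A] N) :
    LinearMap.range (snakeα j d') = LinearMap.ker (snakeβ j d') := by
  ext ⟨m', hm'⟩
  constructor
  · rintro ⟨m, hm⟩
    rw [LinearMap.mem_ker, snakeβ_apply, Submodule.Quotient.mk_eq_zero]
    have := congrArg (fun z : LinearMap.ker d' => (z : M')) hm
    simp only [snakeα_coe] at this
    exact ⟨m, this⟩
  · intro h
    rw [LinearMap.mem_ker, snakeβ_apply, Submodule.Quotient.mk_eq_zero] at h
    obtain ⟨m, hm⟩ := h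
    simp only at hm
    refine ⟨⟨m, ?_⟩, ?_⟩
    · rw [LinearMap.mem_ker, LinearMap.comp_apply, hm]
      exact hm'
    · apply Subtype.ext
      simpa using hm

theorem range_snakeβ (j : M →ₗ[A] M') (d' : M' →ₗ[A] N) :
    LinearMap.range (snakeβ j d') = LinearMap.ker (snakeγ j d') := by
  ext q
  obtain ⟨m', rfl⟩ := Submodule.Quotient.mk_surjective _ q
  constructor
  · rintro ⟨⟨z, hz⟩, hzq⟩
    rw [snakeβ_apply] at hzq
    rw [LinearMap.mem_ker, ← hzq, snakeγ_mk]
    simp only
    rw [LinearMap.mem_ker.mp hz, Submodule.Quotient.mk_zero]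
  · intro h
    rw [LinearMap.mem_ker, snakeγ_mk, Submodule.Quotient.mk_eq_zero] at h
    obtain ⟨m, hm⟩ := h
    rw [LinearMap.comp_apply] at hm
    refine ⟨⟨m' - j m, ?_⟩, ?_⟩
    · rw [LinearMap.mem_ker, map_sub, hm, sub_self]
    · rw [snakeβ_apply]
      simp only
      rw [Submodule.Quotient.mk_sub, sub_eq_self, Submodule.Quotient.mk_eq_zero]
      exact ⟨m, rfl⟩

theorem range_snakeγ (j : M →ₗ[A] M') (d' : M' →ₗ[A] N) :
    LinearMap.range (snakeγ j d') = LinearMap.ker (snakeε j d') := by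
  ext q
  obtain ⟨n, rfl⟩ := Submodule.Quotient.mk_surjective _ q
  constructor
  · rintro ⟨p, hp⟩
    obtain ⟨m', rfl⟩ := Submodule.Quotient.mk_surjective _ p
    rw [snakeγ_mk] at hp
    rw [LinearMap.mem_ker, ← hp, snakeε_mk, Submodule.Quotient.mk_eq_zero]
    exact ⟨m', rfl⟩
  · intro h
    rw [LinearMap.mem_ker, snakeε_mk, Submodule.Quotient.mk_eq_zero] at h
    obtain ⟨m', hm'⟩ := h
    exact ⟨Submodule.Quotient.mk m', by rw [snakeγ_mk, hm']⟩

theorem snakeε_surjective (j : M →ₗ[A] M') (d' : M' →ₗ[A] N) :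
    Function.Surjective (snakeε j d') := by
  intro q
  obtain ⟨n, rfl⟩ := Submodule.Quotient.mk_surjective _ q
  exact ⟨Submodule.Quotient.mk n, rfl⟩

end Snake

section Euler

variable {K : Type*} [Field K] {M M' N : Type*}
  [AddCommGroup M] [AddCommGroup M'] [AddCommGroup N] [Module K M] [Module K M'] [Module K N]

/-- **Euler characteristic of a modification** (`χ(L') = χ(L) + dim (L'/L)`):
`h⁰(L') + h¹(L) = h⁰(L) + dim (M'/jM) + h¹(L')`. -/
theorem finrank_ker_add_finrank_coker (j : M →ₗ[K] M') (d' : M' →ₗ[K] N)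
    (hj : Function.Injective j)
    [FiniteDimensional K (LinearMap.ker d')] [FiniteDimensional K (M' ⧸ LinearMap.range j)]
    [FiniteDimensional K (N ⧸ LinearMap.range (d' ∘ₗ j))] :
    Module.finrank K (LinearMap.ker d') + Module.finrank K (N ⧸ LinearMap.range (d' ∘ₗ j)) =
      Module.finrank K (LinearMap.ker (d' ∘ₗ j)) + Module.finrank K (M' ⧸ LinearMap.range j) +
        Module.finrank K (N ⧸ LinearMap.range d') := by
  have h1 : Module.finrank K (LinearMap.ker (d' ∘ₗ j)) =
      Module.finrank K (LinearMap.ker (snakeβ j d')) := by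
    rw [← range_snakeα]
    exact (LinearMap.finrank_range_of_inj (snakeα_injective j d' hj)).symm
  have h2 := LinearMap.finrank_range_add_finrank_ker (snakeβ j d')
  have h3 := LinearMap.finrank_range_add_finrank_ker (snakeγ j d')
  have h4 := LinearMap.finrank_range_add_finrank_ker (snakeε j d')
  rw [range_snakeβ] at h2
  rw [range_snakeγ] at h3
  rw [LinearMap.range_eq_top.mpr (snakeε_surjective j d'), finrank_top] at h4
  omega

/-- Riemann's inequality for a modification: `h⁰(L') ≥ h⁰(L) + dim (L'/L) - h¹(L)`. -/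
theorem finrank_ker_ge (j : M →ₗ[K] M') (d' : M' →ₗ[K] N)
    (hj : Function.Injective j)
    [FiniteDimensional K (LinearMap.ker d')] [FiniteDimensional K (M' ⧸ LinearMap.range j)]
    [FiniteDimensional K (N ⧸ LinearMap.range (d' ∘ₗ j))] :
    Module.finrank K (LinearMap.ker (d' ∘ₗ j)) + Module.finrank K (M' ⧸ LinearMap.range j) ≤
      Module.finrank K (LinearMap.ker d') + Module.finrank K (N ⧸ LinearMap.range (d' ∘ₗ j)) := by
  have := finrank_ker_add_finrank_coker j d' hj
  omega

end Euler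

section Pigeonhole

variable {K : Type*} [Field K] {V : Type*} [AddCommGroup V] [Module K V]

/-- If `S : ℕ → Submodule K W` is strictly increasing on `{0, …, n}` then `n ≤ dim S n`. -/
theorem le_finrank_of_strictChain {W : Type*} [AddCommGroup W] [Module K W]
    [FiniteDimensional K W] (S : ℕ → Submodule K W) (n : ℕ)
    (hS : ∀ i < n, S i < S (i + 1)) : n ≤ Module.finrank K (S n) := by
  induction n with
  | zero => exact Nat.zero_le _
  | succ n ih =>
    have h1 := ih (fun i hi => hS i (Nat.lt_succ_of_lt hi))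
    have h2 := Submodule.finrank_lt_finrank_of_lt (hS n (Nat.lt_succ_self n))
    omega

/-- **Pigeonhole form of Riemann's inequality.**  `P0`, `P1` are the images of the sections on
the two charts in `V` (sections on the overlap), with `H¹ = V / (P0 + P1)` of finite dimension
`g`.  If `P1 = N 0 < N 1 < ⋯ < N (g+1)` (sections on `U1` with a pole of order `≤ i` at a point),
then there is `f ∈ P0 ∩ N (g+1)` with `f ∉ P1`: a section on `U0` which extends to `U1` with a
genuine pole at the point. -/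
theorem exists_mem_inf_notMem (P0 P1 : Submodule K V)
    [FiniteDimensional K (V ⧸ (P0 ⊔ P1))] (N : ℕ → Submodule K V) (hN0 : N 0 = P1)
    (hN : ∀ i, N i < N (i + 1)) :
    ∃ f : V, f ∈ P0 ∧ f ∈ N (Module.finrank K (V ⧸ (P0 ⊔ P1)) + 1) ∧ f ∉ P1 := by
  classical
  by_contra hcon
  push Not at hcon
  set g := Module.finrank K (V ⧸ (P0 ⊔ P1)) with hg
  have hmono : Monotone N := monotone_nat_of_le_succ fun i => (hN i).le
  set φ : V →ₗ[K] V ⧸ (P0 ⊔ P1) := (P0 ⊔ P1).mkQ with hφ
  -- the chain `φ (N i)`, `i ≤ g + 1`, is strictly increasing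
  have hker : ∀ v ∈ N (g + 1), φ v = 0 → v ∈ P1 := by
    intro v hv h0
    rw [hφ, mkQ_apply, Submodule.Quotient.mk_eq_zero] at h0
    obtain ⟨p0, hp0, p1, hp1, rfl⟩ := Submodule.mem_sup.mp h0
    have hp1N : p1 ∈ N (g + 1) := hmono (Nat.zero_le _) (hN0 ▸ hp1)
    have hp0N : p0 ∈ N (g + 1) := by
      have := (N (g + 1)).sub_mem hv hp1N
      simpa using this
    exact P1.add_mem (hcon p0 hp0 hp0N) hp1
  have hchain : ∀ i < g + 1, (N i).map φ < (N (i + 1)).map φ := by
    intro i hi
    refine lt_of_le_of_ne (Submodule.map_mono (hN i).le) ?_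
    intro heq
    apply (hN i).not_ge
    intro v hv
    have hvφ : φ v ∈ (N i).map φ := heq ▸ Submodule.mem_map_of_mem hv
    obtain ⟨w, hw, hwv⟩ := hvφ
    have hvN : v ∈ N (g + 1) := hmono (Nat.succ_le_of_lt hi) hv
    have hwN : w ∈ N (g + 1) := hmono (Nat.le_of_lt hi) hw
    have hd : v - w ∈ P1 := hker _ ((N (g + 1)).sub_mem hvN hwN) (by rw [map_sub, hwv, sub_self])
    have hdN : v - w ∈ N i := hmono (Nat.zero_le _) (hN0 ▸ hd)
    have := (N i).add_mem hdN hw
    simpa using this
  have h1 := le_finrank_of_strictChain (fun i => (N i).map φ) (g + 1) hchain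
  have h2 := Submodule.finrank_le ((N (g + 1)).map φ)
  omega

end Pigeonhole

end Fermat.Agent.S25.H10
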