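/-
S25, block CECH (helper10): leaf K0e — `N / E^m N` is finitely generated projective over `A`
for an `X`-equivariant retract `N` of `A[X]^n`.  Exact statement of `CechSkel.lean`.
-/
import Fermat.Agent.S25.H10.K0

set_option autoImplicit false

namespace Fermat.Agent.S25.H10

open Polynomial Submodule

universe u v

variable {A : Type u} [CommRing A] {N : Type v} [AddCommGroup N] [Module A N]
  {E : Module.End A N}

/-- truncation of a polynomial below degree `m`. -/
noncomputable def truncBelow (m : ℕ) (p : A[X]) : A[X] :=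
  ∑ k ∈ Finset.range m, monomial k (p.coeff k)

theorem coeff_truncBelow (m : ℕ) (p : A[X]) (d : ℕ) :
    (truncBelow m p).coeff d = if d < m then p.coeff d else 0 := by
  classical
  rw [truncBelow, Polynomial.finsetSum_coeff]
  simp only [Polynomial.coeff_monomial]
  split_ifs with h
  · rw [Finset.sum_eq_single d]
    · simp
    · intro b _ hb
      simp [hb]
    · intro hd
      exact absurd (Finset.mem_range.mpr h) hd
  · apply Finset.sum_eq_zero
    intro b hb
    have : b ≠ d := fun hbd => h (hbd ▸ Finset.mem_range.mp hb)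
    simp [this]

theorem exists_eq_truncBelow_add (m : ℕ) (p : A[X]) :
    ∃ q : A[X], p = truncBelow m p + X ^ m * q := by
  have hdvd : (X : A[X]) ^ m ∣ p - truncBelow m p := by
    rw [Polynomial.X_pow_dvd_iff]
    intro d hd
    rw [Polynomial.coeff_sub, coeff_truncBelow, if_pos hd, sub_self]
  obtain ⟨q, hq⟩ := hdvd
  exact ⟨q, by rw [← hq]; ring⟩

/-- K0e. `N / E^m N` is finitely generated projective over `A`. -/
theorem quotient_pow_finite_projective (h : IsFGProj E) (m : ℕ) :
    Module.Finite A (N ⧸ LinearMap.range (E ^ m)) ∧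
      Module.Projective A (N ⧸ LinearMap.range (E ^ m)) := by
  classical
  obtain ⟨n, ι, π, hπι, hι, hπ⟩ := h
  -- coefficient map
  let c : N →ₗ[A] (Fin n × Fin m → A) :=
    { toFun := fun v ik => (ι v ik.1).coeff ik.2
      map_add' := by intro a b; funext ik; simp
      map_smul' := by intro r a; funext ik; simp }
  have hc : LinearMap.range (E ^ m) ≤ LinearMap.ker c := by
    rintro _ ⟨v, rfl⟩
    rw [LinearMap.mem_ker]
    funext ik
    show (ι ((E ^ m) v) ik.1).coeff ik.2 = 0
    rw [ι_pow ι hι, Pi.smul_apply, smul_eq_mul, Polynomial.coeff_X_pow_mul', if_neg]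
    exact not_le.mpr ik.2.2
  let cbar : (N ⧸ LinearMap.range (E ^ m)) →ₗ[A] (Fin n × Fin m → A) :=
    Submodule.liftQ _ c hc
  -- the section
  let t : (Fin n × Fin m → A) →ₗ[A] (Fin n → A[X]) :=
    { toFun := fun a i => ∑ k : Fin m, monomial (k : ℕ) (a (i, k))
      map_add' := by
        intro a b; funext i
        simp [Finset.sum_add_distrib]
      map_smul' := by
        intro r a; funext i
        simp [Finset.smul_sum, Polynomial.smul_monomial] }
  let s : (Fin n × Fin m → A) →ₗ[A] (N ⧸ LinearMap.range (E ^ m)) :=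
    (LinearMap.range (E ^ m)).mkQ ∘ₗ π ∘ₗ t
  have htc : ∀ v : N, t (c v) = fun i => truncBelow m (ι v i) := by
    intro v
    funext i
    show ∑ k : Fin m, monomial (k : ℕ) ((ι v i).coeff k) = truncBelow m (ι v i)
    rw [truncBelow, Finset.sum_range]
  have hsc : s ∘ₗ cbar = LinearMap.id := by
    apply Submodule.linearMap_qext
    ext v
    show (LinearMap.range (E ^ m)).mkQ (π (t (c v))) = (LinearMap.range (E ^ m)).mkQ v
    rw [htc]
    have hq : ∀ i, ∃ q : A[X], ι v i = truncBelow m (ι v i) + X ^ m * q :=
      fun i => exists_eq_truncBelow_add m (ι v i)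
    choose q hq using hq
    have hv : v = π (ι v) := by
      have := congrArg (fun f : N →ₗ[A] N => f v) hπι
      simpa using this.symm
    have hsplit : ι v = (fun i => truncBelow m (ι v i)) + (X : A[X]) ^ m • q := by
      funext i
      simp only [Pi.add_apply, Pi.smul_apply, smul_eq_mul]
      exact hq i
    have : v - π (fun i => truncBelow m (ι v i)) ∈ LinearMap.range (E ^ m) := by
      refine ⟨π q, ?_⟩
      rw [← π_X_pow_smul π hπ]
      apply eq_sub_of_add_eq
      rw [← map_add, add_comm, ← hsplit, ← hv]
    rw [mkQ_apply, mkQ_apply, eq_comm, Submodule.Quotient.eq]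
    exact this
  have hs_surj : Function.Surjective s := by
    intro x
    refine ⟨cbar x, ?_⟩
    have := congrArg (fun f : _ →ₗ[A] _ => f x) hsc
    simpa using this
  exact ⟨Module.Finite.of_surjective s hs_surj, Module.Projective.of_split cbar s hsc⟩

end Fermat.Agent.S25.H10
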