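/-
S25, block CECH (helper10): leaf K1 (assembly) — if the twisted differential `d m` is onto then
it splits and `H⁰(L(m∞)) = ker (d m)` is a finitely generated projective `A`-module.
Inputs: K0 (helper10), K1b `projective_N01` (helper490), K1a degree bound (as hypothesis here).
-/
import Fermat.Agent.S25.H10.K0
import Fermat.Agent.S25.H490.ProjN01

set_option autoImplicit false

namespace Fermat.Agent.S25.H10

open Polynomial Submodule

universe u v

variable {A : Type u} [CommRing A] {N0 N1 N01 : Type v}
  [AddCommGroup N0] [AddCommGroup N1] [AddCommGroup N01]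
  [Module A N0] [Module A N1] [Module A N01]

/-- K1 with the degree bound K1a as a hypothesis. -/
theorem H0_finite_projective_of_surjective_of_bound (D : CechOps A N0 N1 N01)
    (h0 : IsFGProj D.X0) (h1 : IsFGProj D.Y1)
    (hr0 : Function.Injective D.r0) (m : ℕ)
    (hbound : ∃ M : Submodule A (N0 × N1), M.FG ∧ D.H0 m ≤ M)
    (hsurj : Function.Surjective (D.d m)) :
    (∃ s : N01 →ₗ[A] N0 × N1, D.d m ∘ₗ s = LinearMap.id) ∧
      Module.Finite A (D.H0 m) ∧ Module.Projective A (D.H0 m) := by
  have : Module.Projective A N01 := Fermat.Agent.S25.H490.projective_N01 D h0 hr0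
  have : Module.Projective A N0 := projective_of_isFGProj h0
  have : Module.Projective A N1 := projective_of_isFGProj h1
  obtain ⟨s, hs⟩ := Module.projective_lifting_property (D.d m) LinearMap.id hsurj
  have hds : ∀ z, D.d m (s z) = z := fun z => by
    have := congrArg (fun f : N01 →ₗ[A] N01 => f z) hs
    simpa using this
  -- the retraction onto the kernel
  let p : (N0 × N1) →ₗ[A] D.H0 m :=
    LinearMap.codRestrict (D.H0 m) (LinearMap.id - s ∘ₗ D.d m) (by
      intro v
      rw [LinearMap.mem_ker]
      simp only [LinearMap.sub_apply, LinearMap.id_coe, id_eq, LinearMap.coe_comp,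
        Function.comp_apply, map_sub]
      rw [hds, sub_self])
  have hp : ∀ h : D.H0 m, p h = h := by
    intro h
    apply Subtype.ext
    show (h : N0 × N1) - s (D.d m h) = h
    rw [LinearMap.mem_ker.mp h.2, map_zero, sub_zero]
  obtain ⟨M, hM, hle⟩ := hbound
  have hfg : (D.H0 m).FG := fg_of_le_fg_of_retract (D.H0 m) M hM hle p hp
  refine ⟨⟨s, hs⟩, Module.Finite.iff_fg.mpr hfg, ?_⟩
  refine Module.Projective.of_split (D.H0 m).subtype p ?_
  ext h : 1
  exact hp h

end Fermat.Agent.S25.H10
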