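/-
S25, block DEGREE (helper10): D1 and D4 in the frozen `DefsAlg` language.

* `finite_H1`, `finite_H0`, `finCoh_cech` (D1);
* `twistStep` : the morphism `G(n) → G(n+1)` (identity on `N₀`, `N₀₁`, multiplication by `y` on `N₁`);
* `finrank_quot_y` : `dim_K N₁ / y N₁ = d`;
* `euler_twistE`, `degree_twistE` (D4): `χ(G(n)) = χ(G) + n d`, `deg G(n) = deg G + n d`;
* `chartDeg_pos`.
-/
import Fermat.Agent.S25.H10.DegreeDefs
import Fermat.Agent.S25.H10.K0
import Fermat.Agent.S25.H565.GlueHom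
import Fermat.Agent.S25.H250.AdapterProj
import Fermat.Agent.S25.H250.DegreeBound
import Fermat.Agent.S25.H790.CechK2

set_option autoImplicit false
set_option linter.unusedSectionVars false

universe u

open scoped TensorProduct

namespace Fermat.Agent.S25.H10

open Fermat.Agent.S25

noncomputable section

variable {k : Type u} [Field k] {B₀ B₁ B₀₁ : Type u} [CommRing B₀] [CommRing B₁] [CommRing B₀₁]
  [Algebra k B₀] [Algebra k B₁] [Algebra k B₀₁] [Algebra B₀ B₀₁] [Algebra B₁ B₀₁]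
  [IsScalarTower k B₀ B₀₁] [IsScalarTower k B₁ B₀₁]
  {x : B₀} {y : B₁} {e : B₁ →ₐ[k] k}

/-! ### D1 -/

/-- D1-a. `Ȟ¹` is a finite module over any base ring. -/
theorem finite_H1 (hC : IsCurveChart k B₀ B₁ B₀₁ x y e) {A : Type u} [CommRing A]
    [Algebra k A] (G : CurveGD k B₀ B₁ B₀₁ A) : Module.Finite A G.H1 := by
  have h := H790.H1_finite (H250.chartCechOps hC G) (isFG_of_isFGProj (H250.isFGProj_X0 hC G)) 0
  have hd := H250.chartCechOps_d_zero hC G
  have e : ((H250.chartCechOps hC G).H1 0) ≃ₗ[A] G.H1 :=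
    Submodule.quotEquivOfEq _ _ (by rw [hd])
  exact Module.Finite.equiv e

/-- D1-b. `Ȟ⁰` is finite-dimensional over a field. -/
theorem finite_H0 (hC : IsCurveChart k B₀ B₁ B₀₁ x y e) {K : Type u} [Field K]
    [Algebra k K] (G : CurveGD k B₀ B₁ B₀₁ K) : Module.Finite K G.H0 := by
  obtain ⟨M, hM, hle⟩ := H250.exists_fg_ge_H0 (H250.chartCechOps hC G) (H250.isFGProj_X0 hC G)
    (H250.isFGProj_Y1 hC G) (H250.r0_injective hC G) (H250.r1_injective hC G) 0
  rw [H250.chartCechOps_H0_zero hC G] at hle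
  have : Module.Finite K M := Module.Finite.iff_fg.mpr hM
  exact Module.Finite.of_injective (Submodule.inclusion hle) (Submodule.inclusion_injective hle)

/-- D1. Finite cohomology, in the form used by `H565`. -/
theorem finCoh_cech (hC : IsCurveChart k B₀ B₁ B₀₁ x y e) {K : Type u} [Field K]
    [Algebra k K] (G : CurveGD k B₀ B₁ B₀₁ K) : H565.FinCoh G.cech :=
  ⟨finite_H0 hC G, finite_H1 hC G⟩

/-! ### The morphism `G(n) → G(n+1)` -/

section Step

variable {A : Type u} [CommRing A] [Algebra k A]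

theorem xUnit_inv_val (hxy : algebraMap B₀ B₀₁ x * algebraMap B₁ B₀₁ y = 1) :
    (((xUnit x y hxy A)⁻¹ : (A ⊗[k] B₀₁)ˣ) : A ⊗[k] B₀₁) = (1 : A) ⊗ₜ[k] algebraMap B₁ B₀₁ y :=
  rfl

theorem algebraMap_one_tmul_y :
    algebraMap (A ⊗[k] B₁) (A ⊗[k] B₀₁) ((1 : A) ⊗ₜ[k] y) = (1 : A) ⊗ₜ[k] algebraMap B₁ B₀₁ y :=
  H250.algebraMap_tensor_tmul A B₁ B₀₁ 1 y

/-- The morphism `G(n) → G(n+1)`: the identity on `N₀` and `N₀₁`, multiplication by `1 ⊗ y` on
`N₁`. -/
def twistStep (hxy : algebraMap B₀ B₀₁ x * algebraMap B₁ B₀₁ y = 1)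
    (G : CurveGD k B₀ B₁ B₀₁ A) (n : ℤ) :
    H565.GlueHom (twistE x y hxy G n) (twistE x y hxy G (n + 1)) where
  f₀ := (LinearMap.id : G.N₀ →ₗ[A ⊗[k] B₀] G.N₀)
  f₁ := (LinearMap.lsmul (A ⊗[k] B₁) G.N₁ ((1 : A) ⊗ₜ[k] y) : G.N₁ →ₗ[A ⊗[k] B₁] G.N₁)
  f₀₁ := (LinearMap.id : G.N₀₁ →ₗ[A ⊗[k] B₀₁] G.N₀₁)
  comm₀ _ := rfl
  comm₁ s := by
    show ((xUnit x y hxy A ^ n : (A ⊗[k] B₀₁)ˣ) : A ⊗[k] B₀₁) • G.r₁ s =
      ((xUnit x y hxy A ^ (n + 1) : (A ⊗[k] B₀₁)ˣ) : A ⊗[k] B₀₁) •
        G.r₁ (((1 : A) ⊗ₜ[k] y : A ⊗[k] B₁) • s)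
    have h1 : G.r₁ (((1 : A) ⊗ₜ[k] y : A ⊗[k] B₁) • s) =
        ((1 : A) ⊗ₜ[k] y : A ⊗[k] B₁) • G.r₁ s := G.r₁.map_smul _ _
    have h2 : (((1 : A) ⊗ₜ[k] y : A ⊗[k] B₁) • G.r₁ s : G.N₀₁) =
        (((xUnit x y hxy A)⁻¹ : (A ⊗[k] B₀₁)ˣ) : A ⊗[k] B₀₁) • G.r₁ s := by
      rw [← algebraMap_smul (A ⊗[k] B₀₁) ((1 : A) ⊗ₜ[k] y : A ⊗[k] B₁) (G.r₁ s),
        algebraMap_one_tmul_y, xUnit_inv_val hxy]
    rw [h1, h2, smul_smul, ← Units.val_mul, zpow_add_one, mul_inv_cancel_right]

end Step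

/-! ### `dim_K N₁ / y N₁ = d` -/

section Dim

theorem finrank_quot_tensor_invertible {K R N : Type u} [Field K] [CommRing R] [Algebra K R]
    [AddCommGroup N] [Module R N] [Module.Invertible R N] (I : Ideal R)
    [Module.Finite K (R ⧸ I)] :
    Module.finrank K ((R ⧸ I) ⊗[R] N) = Module.finrank K (R ⧸ I) := by
  rcases subsingleton_or_nontrivial (R ⧸ I) with h | h
  · have : Subsingleton ((R ⧸ I) ⊗[R] N) := Module.subsingleton (R ⧸ I) _
    rw [Module.finrank_zero_of_subsingleton, Module.finrank_zero_of_subsingleton]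
  · have : IsArtinianRing (R ⧸ I) := IsArtinianRing.of_finite K _
    have h1 : Module.finrank (R ⧸ I) ((R ⧸ I) ⊗[R] N) = 1 :=
      Module.Invertible.finrank_eq_one _ _
    have h2 := Module.finrank_mul_finrank K (R ⧸ I) ((R ⧸ I) ⊗[R] N)
    rw [h1, mul_one] at h2
    exact h2.symm

/-- For an invertible module `N` over a `K`-algebra `R` and `t : R` with `R / (t)`
finite-dimensional: `dim_K N / t N = dim_K R / (t)`. -/
theorem finrank_quot_smul_invertible {K R N : Type u} [Field K] [CommRing R] [Algebra K R]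
    [AddCommGroup N] [Module R N] [Module K N] [IsScalarTower K R N] [Module.Invertible R N]
    (t : R) [Module.Finite K (R ⧸ Ideal.span {t})] :
    Module.finrank K (N ⧸ LinearMap.range ((LinearMap.lsmul R N t).restrictScalars K)) =
      Module.finrank K (R ⧸ Ideal.span {t}) := by
  rw [← finrank_quot_tensor_invertible (N := N) (Ideal.span {t})]
  have e1 : ((R ⧸ Ideal.span {t}) ⊗[R] N) ≃ₗ[K] N ⧸ (Ideal.span {t} • (⊤ : Submodule R N)) :=
    (TensorProduct.quotTensorEquivQuotSMul N (Ideal.span {t})).restrictScalars K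
  have hEq : ((Ideal.span {t} • (⊤ : Submodule R N)).restrictScalars K) =
      LinearMap.range ((LinearMap.lsmul R N t).restrictScalars K) := by
    ext n
    rw [Submodule.restrictScalars_mem, Submodule.ideal_span_singleton_smul,
      Submodule.mem_smul_pointwise_iff_exists]
    simp [LinearMap.mem_range]
  have e2 : (N ⧸ LinearMap.range ((LinearMap.lsmul R N t).restrictScalars K)) ≃ₗ[K]
      N ⧸ (Ideal.span {t} • (⊤ : Submodule R N)) :=
    (Submodule.quotEquivOfEq _ _ hEq.symm).trans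
      (Submodule.Quotient.restrictScalarsEquiv K _)
  exact (e2.trans e1.symm).finrank_eq

/-- `B / (y)` is finite over `k` when `B` is finite over `k[y]`. -/
theorem finite_quot_span_of_aeval_finite {B : Type u} [CommRing B] [Algebra k B] (y : B)
    (h : (Polynomial.aeval y : Polynomial k →ₐ[k] B).Finite) :
    Module.Finite k (B ⧸ Ideal.span {y}) := by
  apply H250.finite_of_aeval_zero_finite
  have h1 : (Polynomial.aeval (0 : B ⧸ Ideal.span {y}) :
      Polynomial k →ₐ[k] (B ⧸ Ideal.span {y})).toRingHom =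
      (Ideal.Quotient.mk (Ideal.span {y})).comp
        (Polynomial.aeval y : Polynomial k →ₐ[k] B).toRingHom := by
    apply Polynomial.ringHom_ext
    · intro a
      simp
    · simp
  show (Polynomial.aeval (0 : B ⧸ Ideal.span {y}) :
      Polynomial k →ₐ[k] (B ⧸ Ideal.span {y})).toRingHom.Finite
  rw [h1]
  exact (RingHom.Finite.of_surjective _ Ideal.Quotient.mk_surjective).comp h

/-- The base change of `B / (y)` to `K`. -/
def tensorQuotSpanEquiv (K : Type u) [Field K] [Algebra k K] {B : Type u} [CommRing B]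
    [Algebra k B] (y : B) :
    (K ⊗[k] (B ⧸ Ideal.span {y})) ≃ₗ[K] (K ⊗[k] B) ⧸ Ideal.span {(1 : K) ⊗ₜ[k] y} :=
  (Algebra.TensorProduct.tensorQuotientEquiv (R := k) K B K (Ideal.span {y})).toLinearEquiv.trans
    ((Submodule.quotEquivOfEq
      ((Ideal.span {y}).map (Algebra.TensorProduct.includeRight (R := k) (A := K) (B := B)))
      (Ideal.span {(1 : K) ⊗ₜ[k] y}) (by
        rw [Ideal.map_span, Set.image_singleton]
        rfl)).restrictScalars K)

theorem finite_tensor_quot_span (K : Type u) [Field K] [Algebra k K] {B : Type u} [CommRing B]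
    [Algebra k B] (y : B) [Module.Finite k (B ⧸ Ideal.span {y})] :
    Module.Finite K ((K ⊗[k] B) ⧸ Ideal.span {(1 : K) ⊗ₜ[k] y}) :=
  Module.Finite.equiv (tensorQuotSpanEquiv K y)

theorem finrank_tensor_quot_span (K : Type u) [Field K] [Algebra k K] {B : Type u} [CommRing B]
    [Algebra k B] (y : B) :
    Module.finrank K ((K ⊗[k] B) ⧸ Ideal.span {(1 : K) ⊗ₜ[k] y}) =
      Module.finrank k (B ⧸ Ideal.span {y}) := by
  rw [← (tensorQuotSpanEquiv K y).finrank_eq, Module.finrank_baseChange]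

end Dim

/-! ### D4 -/

section Main

variable {K : Type u} [Field K] [Algebra k K]

theorem finite_quot_smul_invertible {K R N : Type u} [Field K] [CommRing R] [Algebra K R]
    [AddCommGroup N] [Module R N] [Module K N] [IsScalarTower K R N] [Module.Invertible R N]
    (t : R) [Module.Finite K (R ⧸ Ideal.span {t})] :
    Module.Finite K (N ⧸ LinearMap.range ((LinearMap.lsmul R N t).restrictScalars K)) := by
  have e1 : ((R ⧸ Ideal.span {t}) ⊗[R] N) ≃ₗ[K] N ⧸ (Ideal.span {t} • (⊤ : Submodule R N)) :=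
    (TensorProduct.quotTensorEquivQuotSMul N (Ideal.span {t})).restrictScalars K
  have hEq : ((Ideal.span {t} • (⊤ : Submodule R N)).restrictScalars K) =
      LinearMap.range ((LinearMap.lsmul R N t).restrictScalars K) := by
    ext n
    rw [Submodule.restrictScalars_mem, Submodule.ideal_span_singleton_smul,
      Submodule.mem_smul_pointwise_iff_exists]
    simp [LinearMap.mem_range]
  have e2 : (N ⧸ LinearMap.range ((LinearMap.lsmul R N t).restrictScalars K)) ≃ₗ[K]
      N ⧸ (Ideal.span {t} • (⊤ : Submodule R N)) :=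
    (Submodule.quotEquivOfEq _ _ hEq.symm).trans
      (Submodule.Quotient.restrictScalarsEquiv K _)
  have : Module.Finite K ((R ⧸ Ideal.span {t}) ⊗[R] N) :=
    Module.Finite.trans (R ⧸ Ideal.span {t}) _
  exact Module.Finite.equiv (e2.trans e1.symm).symm

theorem finrank_quot_range_id {N : Type u} [AddCommGroup N] [Module K N] :
    Module.finrank K (N ⧸ LinearMap.range (LinearMap.id : N →ₗ[K] N)) = 0 := by
  have : Subsingleton (N ⧸ LinearMap.range (LinearMap.id : N →ₗ[K] N)) := by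
    rw [Submodule.Quotient.subsingleton_iff, LinearMap.range_id]
  exact Module.finrank_zero_of_subsingleton

/-- `χ(G(n+1)) = χ(G(n)) + d`. -/
theorem euler_twistE_succ (hC : IsCurveChart k B₀ B₁ B₀₁ x y e)
    (G : CurveGD k B₀ B₁ B₀₁ K) (n : ℤ) :
    (twistE x y hC.mul_eq_one G (n + 1)).euler =
      (twistE x y hC.mul_eq_one G n).euler + chartDeg k y := by
  have := hC.away₀
  have hloc : IsLocalization.Away ((1 : K) ⊗ₜ[k] x : K ⊗[k] B₀) (K ⊗[k] B₀₁) :=
    H250.isLocalization_away_tensor B₀ B₀₁ x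
  have hfin : Module.Finite k (B₁ ⧸ Ideal.span {y}) :=
    finite_quot_span_of_aeval_finite y hC.finite₁
  have hfinK : Module.Finite K ((K ⊗[k] B₁) ⧸ Ideal.span {(1 : K) ⊗ₜ[k] y}) :=
    finite_tensor_quot_span K y
  have hinv : Module.Invertible (K ⊗[k] B₁) G.N₁ := G.invertible₁
  set φ := twistStep hC.mul_eq_one G n with hφ
  have h0inj : Function.Injective φ.f₀ := fun _ _ h => h
  have h1inj : Function.Injective φ.f₁ := by
    have h := injective_of_isFGProj (H250.isFGProj_Y1 hC G)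
    exact h
  have hc0 : Module.finrank K φ.coker₀ = 0 := finrank_quot_range_id (K := K) (N := G.N₀)
  have hc01 : Module.finrank K φ.coker₀₁ = 0 := finrank_quot_range_id (K := K) (N := G.N₀₁)
  have hc1 : Module.finrank K φ.coker₁ = chartDeg k y := by
    have h := finrank_quot_smul_invertible (K := K) (R := K ⊗[k] B₁) (N := G.N₁)
      ((1 : K) ⊗ₜ[k] y)
    rw [finrank_tensor_quot_span] at h
    exact h
  have hf0 : FiniteDimensional K φ.coker₀ := by
    have : Subsingleton (G.N₀ ⧸ LinearMap.range (LinearMap.id : G.N₀ →ₗ[K] G.N₀)) := by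
      rw [Submodule.Quotient.subsingleton_iff, LinearMap.range_id]
    exact (inferInstance :
      Module.Finite K (G.N₀ ⧸ LinearMap.range (LinearMap.id : G.N₀ →ₗ[K] G.N₀)))
  have hf1 : FiniteDimensional K φ.coker₁ :=
    finite_quot_smul_invertible (K := K) (R := K ⊗[k] B₁) (N := G.N₁) ((1 : K) ⊗ₜ[k] y)
  have h := (φ.euler_eq ((1 : K) ⊗ₜ[k] x) h0inj h1inj
    (finCoh_cech hC (twistE x y hC.mul_eq_one G n))).2
  rw [h, hc0, hc01, hc1]
  simp

end Main

section Main2

variable {K : Type u} [Field K] [Algebra k K]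

theorem gdTwist_one_cech {A R₀ R₁ R₀₁ : Type u} [CommRing A] [CommRing R₀] [CommRing R₁]
    [CommRing R₀₁] [Algebra A R₀] [Algebra A R₁] [Algebra A R₀₁] [Algebra R₀ R₀₁]
    [Algebra R₁ R₀₁] [IsScalarTower A R₀ R₀₁] [IsScalarTower A R₁ R₀₁]
    (G : GlueDatum A R₀ R₁ R₀₁) :
    ((gdTwist G 1).cech : (G.N₀ × G.N₁) →ₗ[A] G.N₀₁) = G.cech := by
  apply LinearMap.ext
  rintro ⟨a, b⟩
  rw [gdTwist_cech_apply, Units.val_one, one_smul, sub_eq_add_neg]
  rfl

theorem gdTwist_one_euler {R₀ R₁ R₀₁ : Type u} [CommRing R₀] [CommRing R₁]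
    [CommRing R₀₁] [Algebra K R₀] [Algebra K R₁] [Algebra K R₀₁] [Algebra R₀ R₀₁]
    [Algebra R₁ R₀₁] [IsScalarTower K R₀ R₀₁] [IsScalarTower K R₁ R₀₁]
    (G : GlueDatum K R₀ R₁ R₀₁) : (gdTwist G 1).euler = G.euler := by
  show H565.chi ((gdTwist G 1).cech : (G.N₀ × G.N₁) →ₗ[K] G.N₀₁) = H565.chi G.cech
  rw [gdTwist_one_cech]
  rfl

/-- D4-a. `χ(G(n)) = χ(G) + n d`. -/
theorem euler_twistE (hC : IsCurveChart k B₀ B₁ B₀₁ x y e)
    (G : CurveGD k B₀ B₁ B₀₁ K) (n : ℤ) :
    (twistE x y hC.mul_eq_one G n).euler = G.euler + n * chartDeg k y := by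
  induction n using Int.induction_on with
  | zero =>
    have h : twistE x y hC.mul_eq_one G 0 = gdTwist G 1 := by
      unfold twistE
      rw [zpow_zero]
    rw [h, gdTwist_one_euler]
    simp
  | succ n ih =>
    rw [euler_twistE_succ hC G n, ih]
    ring
  | pred n ih =>
    have h := euler_twistE_succ hC G (-(n : ℤ) - 1)
    rw [sub_add_cancel, ih] at h
    have h' : (twistE x y hC.mul_eq_one G (-(n : ℤ) - 1)).euler =
        G.euler + -(n : ℤ) * chartDeg k y - chartDeg k y := by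
      rw [h]; ring
    rw [h']
    ring

/-- D4-b. `deg G(n) = deg G + n d`. -/
theorem degree_twistE (hC : IsCurveChart k B₀ B₁ B₀₁ x y e)
    (G : CurveGD k B₀ B₁ B₀₁ K) (n : ℤ) :
    (twistE x y hC.mul_eq_one G n).degree = G.degree + n * chartDeg k y := by
  unfold GlueDatum.degree
  rw [euler_twistE hC G n]
  ring

/-- D4-c. `d > 0`. -/
theorem chartDeg_pos (hC : IsCurveChart k B₀ B₁ B₀₁ x y e) : 0 < chartDeg k y := by
  have hfin : Module.Finite k (B₁ ⧸ Ideal.span {y}) :=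
    finite_quot_span_of_aeval_finite y hC.finite₁
  have hne : Ideal.span {y} ≠ (⊤ : Ideal B₁) := by
    intro h
    have h1 : (1 : B₁) ∈ Ideal.span {y} := by rw [h]; trivial
    rw [Ideal.mem_span_singleton'] at h1
    obtain ⟨a, ha⟩ := h1
    have := congrArg e ha
    rw [map_mul, hC.e_y, mul_zero, map_one] at this
    exact zero_ne_one this
  have : Nontrivial (B₁ ⧸ Ideal.span {y}) := Ideal.Quotient.nontrivial_iff.mpr hne
  exact Module.finrank_pos

end Main2

end

end Fermat.Agent.S25.H10
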