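/-
S25, block CECH (helper10): leaves K5 (base change): `isFGProj_baseChange`, `baseChange_d`,
`H0_baseChange_bijective`.  Exact statements of `CechSkel.lean`.
-/
import Fermat.Agent.S25.H10.K0
import Fermat.Agent.S25.H490.ProjN01

set_option autoImplicit false

namespace Fermat.Agent.S25.H10

open Polynomial TensorProduct

universe u v w

variable {A : Type u} [CommRing A]

section K5a
variable (A' : Type w) [CommRing A'] [Algebra A A']

/-- `A' ⊗[A] A[X]^n ≃ A'[X]^n`. -/
noncomputable def polyVecEquiv (n : ℕ) :
    A' ⊗[A] (Fin n → A[X]) ≃ₗ[A'] (Fin n → A'[X]) :=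
  (TensorProduct.piRight A A' A' (fun _ : Fin n => A[X])) ≪≫ₗ
    (LinearEquiv.piCongrRight fun _ => (polyEquivTensor' A A').symm.toLinearEquiv)

theorem polyVecEquiv_tmul (n : ℕ) (a : A') (w : Fin n → A[X]) :
    polyVecEquiv A' n (a ⊗ₜ w) = fun i => a • (w i).map (algebraMap A A') := by
  funext i
  simp [polyVecEquiv]

theorem polyVecEquiv_baseChange_X (n : ℕ) (z : A' ⊗[A] (Fin n → A[X])) :
    polyVecEquiv A' n
        ((LinearMap.baseChange A'
          (DistribSMul.toLinearMap A (Fin n → A[X]) (X : A[X]))) z) =
      (X : A'[X]) • polyVecEquiv A' n z := by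
  induction z using TensorProduct.induction_on with
  | zero => simp
  | tmul a w =>
    rw [LinearMap.baseChange_tmul, polyVecEquiv_tmul, polyVecEquiv_tmul]
    funext i
    simp only [DistribSMul.toLinearMap_apply, Pi.smul_apply, smul_eq_mul, Polynomial.map_mul,
      Polynomial.map_X]
    rw [Polynomial.smul_eq_C_mul, Polynomial.smul_eq_C_mul]
    ring
  | add x y hx hy => simp only [map_add, hx, hy, smul_add]

/-- K5a. `IsFGProj` is stable under base change. -/
theorem isFGProj_baseChange {N : Type v} [AddCommGroup N] [Module A N] {E : Module.End A N}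
    (h : IsFGProj E) : IsFGProj (E.baseChange A') := by
  obtain ⟨n, ι, π, hπι, hι, hπ⟩ := h
  set mulX : (Fin n → A[X]) →ₗ[A] (Fin n → A[X]) :=
    DistribSMul.toLinearMap A (Fin n → A[X]) (X : A[X]) with hmulX
  have hι' : ι ∘ₗ E = mulX ∘ₗ ι := LinearMap.ext fun v => hι v
  have hπ' : π ∘ₗ mulX = E ∘ₗ π := LinearMap.ext fun w => hπ w
  refine ⟨n, (polyVecEquiv (A := A) A' n).toLinearMap ∘ₗ ι.baseChange A',
    π.baseChange A' ∘ₗ (polyVecEquiv (A := A) A' n).symm.toLinearMap, ?_, ?_, ?_⟩
  · refine LinearMap.ext fun z => ?_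
    simp only [LinearMap.coe_comp, LinearEquiv.coe_coe, Function.comp_apply,
      LinearEquiv.symm_apply_apply, LinearMap.id_coe, id_eq]
    rw [← LinearMap.comp_apply, ← LinearMap.baseChange_comp, hπι, LinearMap.baseChange_id]
    rfl
  · intro z
    simp only [LinearMap.coe_comp, LinearEquiv.coe_coe, Function.comp_apply]
    rw [← LinearMap.comp_apply (ι.baseChange A'), ← LinearMap.baseChange_comp, hι',
      LinearMap.baseChange_comp, LinearMap.comp_apply, polyVecEquiv_baseChange_X]
  · intro w
    simp only [LinearMap.coe_comp, LinearEquiv.coe_coe, Function.comp_apply]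
    obtain ⟨z, rfl⟩ := (polyVecEquiv (A := A) A' n).surjective w
    rw [← polyVecEquiv_baseChange_X, LinearEquiv.symm_apply_apply, LinearEquiv.symm_apply_apply,
      ← LinearMap.comp_apply (π.baseChange A'), ← LinearMap.baseChange_comp, hπ',
      LinearMap.baseChange_comp, LinearMap.comp_apply]

end K5a

variable {N0 N1 N01 : Type v}
  [AddCommGroup N0] [AddCommGroup N1] [AddCommGroup N01]
  [Module A N0] [Module A N1] [Module A N01]

section K5
variable (A' : Type w) [CommRing A'] [Algebra A A']

theorem baseChange_pow {M : Type v} [AddCommGroup M] [Module A M] (f : Module.End A M) (k : ℕ) :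
    (f.baseChange A') ^ k = (f ^ k).baseChange A' := by
  induction k with
  | zero => simp [Module.End.one_eq_id]
  | succ k ih => rw [pow_succ, ih, pow_succ, LinearMap.baseChange_mul]

/-- K5c. The twisted differential of the base change is the base change of the twisted
differential (up to the canonical iso `A' ⊗ (N0 × N1) ≃ (A' ⊗ N0) × (A' ⊗ N1)`). -/
theorem baseChange_d (D : CechOps A N0 N1 N01) (m : ℕ) :
    (D.baseChange A').d m ∘ₗ
        ((TensorProduct.prodRight A A' A' N0 N1).toLinearMap) = (D.d m).baseChange A' := by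
  refine LinearMap.ext fun z => ?_
  induction z using TensorProduct.induction_on with
  | zero => simp
  | tmul a p =>
    obtain ⟨n0, n1⟩ := p
    simp only [LinearMap.coe_comp, LinearEquiv.coe_coe, Function.comp_apply,
      LinearMap.baseChange_tmul, CechOps.d_apply, TensorProduct.prodRight_tmul]
    simp only [CechOps.baseChange, baseChange_pow, LinearMap.baseChange_tmul,
      TensorProduct.tmul_sub]
  | add x y hx hy => simp only [map_add, hx, hy]

/-- K5d. If `d m` is surjective, `H⁰` commutes with base change:
`A' ⊗ ker (d m) → ker (A' ⊗ d m)` is bijective. -/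
theorem H0_baseChange_bijective (D : CechOps A N0 N1 N01)
    (h0 : IsFGProj D.X0) (hr0 : Function.Injective D.r0) (m : ℕ)
    (hsurj : Function.Surjective (D.d m)) :
    Function.Injective ((D.H0 m).subtype.baseChange A') ∧
      LinearMap.range ((D.H0 m).subtype.baseChange A') =
        LinearMap.ker ((D.d m).baseChange A') := by
  have : Module.Projective A N01 := Fermat.Agent.S25.H490.projective_N01 D h0 hr0
  obtain ⟨s, hs⟩ := Module.projective_lifting_property (D.d m) LinearMap.id hsurj
  have hds : ∀ z, D.d m (s z) = z := fun z => by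
    have := congrArg (fun f : N01 →ₗ[A] N01 => f z) hs
    simpa using this
  let p : (N0 × N1) →ₗ[A] D.H0 m :=
    LinearMap.codRestrict (D.H0 m) (LinearMap.id - s ∘ₗ D.d m) (by
      intro v
      rw [LinearMap.mem_ker]
      simp only [LinearMap.sub_apply, LinearMap.id_coe, id_eq, LinearMap.coe_comp,
        Function.comp_apply, map_sub]
      rw [hds, sub_self])
  have hp : p ∘ₗ (D.H0 m).subtype = LinearMap.id := by
    refine LinearMap.ext fun h => Subtype.ext ?_
    show ((h : N0 × N1) - s (D.d m h)) = h
    rw [LinearMap.mem_ker.mp h.2, map_zero, sub_zero]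
  have hsum : (D.H0 m).subtype ∘ₗ p + s ∘ₗ D.d m = LinearMap.id := by
    refine LinearMap.ext fun v => ?_
    show ((v - s (D.d m v)) + s (D.d m v)) = v
    abel
  have hzero : D.d m ∘ₗ (D.H0 m).subtype = 0 :=
    LinearMap.ext fun h => LinearMap.mem_ker.mp h.2
  have hp' : p.baseChange A' ∘ₗ (D.H0 m).subtype.baseChange A' = LinearMap.id := by
    rw [← LinearMap.baseChange_comp, hp, LinearMap.baseChange_id]
  have hsum' : (D.H0 m).subtype.baseChange A' ∘ₗ p.baseChange A' +
      s.baseChange A' ∘ₗ (D.d m).baseChange A' = LinearMap.id := by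
    rw [← LinearMap.baseChange_comp, ← LinearMap.baseChange_comp, ← LinearMap.baseChange_add,
      hsum, LinearMap.baseChange_id]
  have hzero' : (D.d m).baseChange A' ∘ₗ (D.H0 m).subtype.baseChange A' = 0 := by
    rw [← LinearMap.baseChange_comp, hzero, LinearMap.baseChange_zero]
  refine ⟨?_, ?_⟩
  · intro a b hab
    have ha := congrArg (fun f => f a) hp'
    have hb := congrArg (fun f => f b) hp'
    simp only [LinearMap.coe_comp, Function.comp_apply, LinearMap.id_coe, id_eq] at ha hb
    rw [← ha, ← hb, hab]
  · apply le_antisymm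
    · rintro _ ⟨z, rfl⟩
      rw [LinearMap.mem_ker]
      have := congrArg (fun f => f z) hzero'
      simpa using this
    · intro z hz
      rw [LinearMap.mem_ker] at hz
      have := congrArg (fun f => f z) hsum'
      simp only [LinearMap.add_apply, LinearMap.coe_comp, Function.comp_apply, LinearMap.id_coe,
        id_eq] at this
      rw [hz, map_zero, add_zero] at this
      exact ⟨_, this⟩

end K5

end Fermat.Agent.S25.H10
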