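/-
S25, block CECH → block CURVE (leaf C5): existence of a rational function with a pole at one
point only, from finiteness of the Čech `H¹` of the structure sheaf (E1) and the pigeonhole form
of Riemann's inequality.  Mathlib + hand-in E1 of helper790.
-/
import Fermat.Agent.S25.H10.RRLite
import Fermat.Agent.S25.H790.CechE1

set_option autoImplicit false

namespace Fermat.Agent.S25.H10

open Submodule

variable {k F : Type*} [Field k] [Field F] [Algebra k F]

/-- Finiteness of `H¹(O) = B01 / (B0 + B1)` for a two-chart cover, inside the function field: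
`B0`, `B1 ≤ B01` subalgebras of `F`, `x ∈ B0`, `y ∈ B1`, `x y = 1`, `B01 = B0[1/x] = B1[1/y]`,
`B0` finite over `k[x]`. -/
theorem finite_H1_subalgebra (B0 B1 B01 : Subalgebra k F) (x y : F)
    (hx : x ∈ B0) (hy : y ∈ B1) (hxy : x * y = 1)
    (h0le : B0 ≤ B01) (h1le : B1 ≤ B01)
    (hloc0 : ∀ z ∈ B01, ∃ n : ℕ, x ^ n * z ∈ B0)
    (hloc1 : ∀ z ∈ B01, ∃ n : ℕ, y ^ n * z ∈ B1)
    (hfin : ∃ s : Finset F, (∀ e ∈ s, e ∈ B0) ∧
      ∀ b ∈ B0, b ∈ span k {m : F | ∃ e ∈ s, ∃ n : ℕ, m = x ^ n * e}) :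
    Module.Finite k (B01 ⧸ (LinearMap.range (Subalgebra.inclusion h0le).toLinearMap ⊔
      LinearMap.range (Subalgebra.inclusion h1le).toLinearMap)) := by
  classical
  set x0 : B0 := ⟨x, hx⟩ with hx0
  set y1 : B1 := ⟨y, hy⟩ with hy1
  set x01 : B01 := ⟨x, h0le hx⟩ with hx01
  set y01 : B01 := ⟨y, h1le hy⟩ with hy01
  have hxy01 : x01 * y01 = 1 := Subtype.ext hxy
  have hyx01 : y01 * x01 = 1 := by rw [mul_comm]; exact hxy01
  obtain ⟨s, hsB, hs⟩ := hfin
  -- the finite generating set inside `B0`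
  let s0 : Finset B0 := s.attach.image (fun e => (⟨e.1, hsB e.1 e.2⟩ : B0))
  have hpowT : ∀ (n : ℕ) (z : B01), ((LinearMap.mulLeft k x01) ^ n) z = x01 ^ n * z := by
    intro n z
    induction n generalizing z with
    | zero => simp
    | succ n ih => rw [pow_succ, Module.End.mul_apply, ih, LinearMap.mulLeft_apply, pow_succ,
        mul_assoc]
  have hpowTinv : ∀ (n : ℕ) (z : B01), ((LinearMap.mulLeft k y01) ^ n) z = y01 ^ n * z := by
    intro n z
    induction n generalizing z with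
    | zero => simp
    | succ n ih => rw [pow_succ, Module.End.mul_apply, ih, LinearMap.mulLeft_apply, pow_succ,
        mul_assoc]
  have hpowX : ∀ (n : ℕ) (z : B0), ((LinearMap.mulLeft k x0) ^ n) z = x0 ^ n * z := by
    intro n z
    induction n generalizing z with
    | zero => simp
    | succ n ih => rw [pow_succ, Module.End.mul_apply, ih, LinearMap.mulLeft_apply, pow_succ,
        mul_assoc]
  refine Fermat.Agent.S25.H790.cechH1_finite_core
    (LinearMap.mulLeft k x0) (LinearMap.mulLeft k y1)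
    (LinearMap.mulLeft k x01) (LinearMap.mulLeft k y01) ?_ ?_
    (Subalgebra.inclusion h0le).toLinearMap (Subalgebra.inclusion h1le).toLinearMap
    ?_ ?_ s0 ?_ ?_ ?_
  · ext z
    simp only [Module.End.mul_apply, LinearMap.mulLeft_apply, Module.End.one_apply]
    rw [← mul_assoc, hxy01, one_mul]
  · ext z
    simp only [Module.End.mul_apply, LinearMap.mulLeft_apply, Module.End.one_apply]
    rw [← mul_assoc, hyx01, one_mul]
  · intro n
    apply Subtype.ext
    simp [x0, x01]
  · intro n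
    apply Subtype.ext
    simp [y1, y01]
  · -- generation
    intro b
    have hb := hs b.1 b.2
    -- transport the span statement from `F` to `B0`
    have key : ∀ v ∈ span k {m : F | ∃ e ∈ s, ∃ n : ℕ, m = x ^ n * e},
        ∃ hv : v ∈ B0, (⟨v, hv⟩ : B0) ∈
          span k {m : B0 | ∃ e ∈ s0, ∃ n : ℕ, m = ((LinearMap.mulLeft k x0) ^ n) e} := by
      intro v hv
      induction hv using Submodule.span_induction with
      | mem m hm =>
        obtain ⟨e, he, n, rfl⟩ := hm
        have heB : e ∈ B0 := hsB e he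
        refine ⟨B0.mul_mem (B0.pow_mem hx n) heB, subset_span ?_⟩
        refine ⟨⟨e, heB⟩, ?_, n, ?_⟩
        · exact Finset.mem_image.mpr ⟨⟨e, he⟩, Finset.mem_attach _ _, rfl⟩
        · rw [hpowX]
          apply Subtype.ext
          simp [x0]
      | zero => exact ⟨B0.zero_mem, by
          have : (⟨0, B0.zero_mem⟩ : B0) = 0 := rfl
          rw [this]; exact Submodule.zero_mem _⟩
      | add a c _ _ ha hc =>
        obtain ⟨ha1, ha2⟩ := ha
        obtain ⟨hc1, hc2⟩ := hc
        refine ⟨B0.add_mem ha1 hc1, ?_⟩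
        have : (⟨a + c, B0.add_mem ha1 hc1⟩ : B0) = ⟨a, ha1⟩ + ⟨c, hc1⟩ := rfl
        rw [this]
        exact Submodule.add_mem _ ha2 hc2
      | smul r a _ ha =>
        obtain ⟨ha1, ha2⟩ := ha
        refine ⟨B0.smul_mem ha1 r, ?_⟩
        have : (⟨r • a, B0.smul_mem ha1 r⟩ : B0) = r • ⟨a, ha1⟩ := rfl
        rw [this]
        exact Submodule.smul_mem _ r ha2
    obtain ⟨_, h2⟩ := key b.1 hb
    exact h2
  · intro z
    obtain ⟨n, hn⟩ := hloc0 z.1 z.2
    refine ⟨n, ⟨x ^ n * z.1, hn⟩, ?_⟩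
    rw [hpowT]
    apply Subtype.ext
    simp [x01]
  · intro z
    obtain ⟨n, hn⟩ := hloc1 z.1 z.2
    refine ⟨n, ⟨y ^ n * z.1, hn⟩, ?_⟩
    rw [hpowTinv]
    apply Subtype.ext
    simp [y01]

/-- **RR-lite for leaf C5.**  Two-chart cover inside the function field `F`
(`B0`, `B1 ≤ B01`, `x ∈ B0`, `y ∈ B1`, `x y = 1`, `B01 = B0[1/x] = B1[1/y]`, `B0` finite over
`k[x]`), and a strictly increasing chain `B1 = N 0 < N 1 < ⋯` of `k`-subspaces of `B01`
(in practice `N i = 𝔪⁻ⁱ`, the functions on `U1` with a pole of order `≤ i` at the point `𝔪`,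
where `y ∈ 𝔪`).  Then some `f ∈ B0 ∩ N n` is not in `B1`: `f` is regular on `U0`, regular on
`U1` away from the point, and has a pole at the point. -/
theorem exists_function_with_pole (B0 B1 B01 : Subalgebra k F) (x y : F)
    (hx : x ∈ B0) (hy : y ∈ B1) (hxy : x * y = 1)
    (h0le : B0 ≤ B01) (h1le : B1 ≤ B01)
    (hloc0 : ∀ z ∈ B01, ∃ n : ℕ, x ^ n * z ∈ B0)
    (hloc1 : ∀ z ∈ B01, ∃ n : ℕ, y ^ n * z ∈ B1)
    (hfin : ∃ s : Finset F, (∀ e ∈ s, e ∈ B0) ∧
      ∀ b ∈ B0, b ∈ span k {m : F | ∃ e ∈ s, ∃ n : ℕ, m = x ^ n * e})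
    (N : ℕ → Submodule k F) (hN0 : N 0 = Subalgebra.toSubmodule B1)
    (hN : ∀ i, N i < N (i + 1)) (hN01 : ∀ i, N i ≤ Subalgebra.toSubmodule B01) :
    ∃ (n : ℕ) (f : F), f ∈ B0 ∧ f ∈ N n ∧ f ∉ B1 := by
  classical
  have := finite_H1_subalgebra B0 B1 B01 x y hx hy hxy h0le h1le hloc0 hloc1 hfin
  set ι : B01 →ₗ[k] F := (Subalgebra.toSubmodule B01).subtype with hι
  have hιinj : Function.Injective ι := Subtype.val_injective
  set P0 := LinearMap.range (Subalgebra.inclusion h0le).toLinearMap with hP0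
  set P1 := LinearMap.range (Subalgebra.inclusion h1le).toLinearMap with hP1
  have hmemP0 : ∀ z : B01, z ∈ P0 ↔ (z : F) ∈ B0 := by
    intro z
    constructor
    · rintro ⟨b, rfl⟩
      exact b.2
    · intro h
      exact ⟨⟨z, h⟩, Subtype.ext rfl⟩
  have hmemP1 : ∀ z : B01, z ∈ P1 ↔ (z : F) ∈ B1 := by
    intro z
    constructor
    · rintro ⟨b, rfl⟩
      exact b.2
    · intro h
      exact ⟨⟨z, h⟩, Subtype.ext rfl⟩
  obtain ⟨f, hf0, hfN, hf1⟩ := exists_mem_inf_notMem P0 P1 (fun i => (N i).comap ι)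
    (by
      ext z
      rw [Submodule.mem_comap, hN0, hmemP1]
      rfl)
    (by
      intro i
      refine lt_of_le_of_ne (Submodule.comap_mono (hN i).le) ?_
      intro heq
      apply (hN i).not_ge
      intro v hv
      have hv01 : v ∈ Subalgebra.toSubmodule B01 := hN01 _ hv
      have : (⟨v, hv01⟩ : B01) ∈ (N (i + 1)).comap ι := hv
      rw [← heq] at this
      exact this)
  exact ⟨_, (f : F), (hmemP0 f).mp hf0, hfN, fun h => hf1 ((hmemP1 f).mpr h)⟩

end Fermat.Agent.S25.H10
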